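import Fermat.Agent.Two.Tangent.Basic
import Mathlib.Algebra.Field.ZMod

/-!
# The normal form of a residual representation with values in `GL₂(𝔽₂)`

Over a field of characteristic two with a cube root of unity, a representation with image `S₃`
conjugates to the dihedral normal form.
-/

set_option autoImplicit false
set_option linter.style.haveILetI false
set_option linter.unusedSectionVars false

noncomputable section

namespace Fermat.Agent.Two.Tangent

open Fermat.Agent.Deform Fermat.Agent.Arith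

variable {k : Type} [Field k] [CharP k 2]

theorem six_cases : ∀ X : M2 (ZMod 2), X.det ≠ 0 →
    X = 1 ∨ X = !![0, 1; 1, 1] ∨ X = !![1, 1; 1, 0] ∨
      X = !![0, 1; 1, 0] ∨ X = !![1, 1; 0, 1] ∨ X = !![1, 0; 1, 1] := by
  decide

/-- The change of basis to eigenvectors of an element of order three. -/
def normalBasis (ω : k) : M2 k := !![1, 1; ω, ω ^ 2]

/-- Its inverse. -/
def normalBasisInv (ω : k) : M2 k := !![ω ^ 2, 1; ω, 1]

theorem normalBasisInv_mul {ω : k} (hω : ω ^ 2 + ω + 1 = 0) :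
    normalBasisInv ω * normalBasis ω = 1 := by
  have h2 : (2 : k) = 0 := CharTwo.two_eq_zero
  ext i j
  fin_cases i <;> fin_cases j <;> simp [normalBasis, normalBasisInv]
  · linear_combination hω - h2
  · linear_combination ω ^ 2 * h2
  · linear_combination ω * h2
  · linear_combination hω - h2

theorem normalBasis_mul {ω : k} (hω : ω ^ 2 + ω + 1 = 0) :
    normalBasis ω * normalBasisInv ω = 1 :=
  mul_eq_one_comm.mp (normalBasisInv_mul hω)

/-- Conjugation to the normal form. -/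
def normalHom {ω : k} (hω : ω ^ 2 + ω + 1 = 0) : M2 (ZMod 2) →* M2 k where
  toFun X := normalBasisInv ω * X.map (ZMod.castHom (dvd_refl 2) k) * normalBasis ω
  map_one' := by rw [Matrix.map_one _ (map_zero _) (map_one _), mul_one, normalBasisInv_mul hω]
  map_mul' X Y := by
    rw [Matrix.map_mul]
    simp only [mul_assoc]
    rw [← mul_assoc (normalBasis ω) (normalBasisInv ω), normalBasis_mul hω, one_mul]

theorem normalHom_of {ω : k} (hω : ω ^ 2 + ω + 1 = 0) (a b c d : ZMod 2) {a' b' c' d' : k}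
    (ha : ZMod.castHom (dvd_refl 2) k a = a') (hb : ZMod.castHom (dvd_refl 2) k b = b')
    (hc : ZMod.castHom (dvd_refl 2) k c = c') (hd : ZMod.castHom (dvd_refl 2) k d = d') :
    normalHom hω !![a, b; c, d] =
      !![ω ^ 2 * a' + c' + (ω ^ 2 * b' + d') * ω, ω ^ 2 * a' + c' + (ω ^ 2 * b' + d') * ω ^ 2;
        ω * a' + c' + (ω * b' + d') * ω, ω * a' + c' + (ω * b' + d') * ω ^ 2] := by
  have hmap : (!![a, b; c, d] : M2 (ZMod 2)).map (ZMod.castHom (dvd_refl 2) k) =
      !![a', b'; c', d'] := by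
    ext i j
    fin_cases i <;> fin_cases j
    exacts [ha, hb, hc, hd]
  show normalBasisInv ω * _ * normalBasis ω = _
  rw [hmap, normalBasisInv, normalBasis, Matrix.mul_fin_two, Matrix.mul_fin_two]
  simp only [one_mul, mul_one]

theorem normalHom_form {ω : k} (hω : ω ^ 2 + ω + 1 = 0) {X : M2 (ZMod 2)} (hX : X.det ≠ 0) :
    (X = 1 ∨ X.trace = 1 → ∃ a : ℕ, normalHom hω X = !![ω ^ a, 0; 0, ω ^ (2 * a)]) ∧
      (¬ (X = 1 ∨ X.trace = 1) →
        ∃ a : ℕ, normalHom hω X = !![0, ω ^ a; ω ^ (2 * a), 0]) := by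
  have h2 : (2 : k) = 0 := CharTwo.two_eq_zero
  have h3 := omega_cube hω
  rcases six_cases X hX with rfl | rfl | rfl | rfl | rfl | rfl
  · exact ⟨fun _ => ⟨0, by rw [map_one]; simp [Matrix.one_fin_two]⟩,
      fun h => absurd (Or.inl rfl) h⟩
  · refine ⟨fun _ => ⟨1, ?_⟩, fun h => absurd (Or.inr (by decide)) h⟩
    rw [normalHom_of hω _ _ _ _ rfl rfl rfl rfl, map_one]
    try rw [map_zero]
    ext i j
    fin_cases i <;> fin_cases j <;> simp <;> grind
  · refine ⟨fun _ => ⟨2, ?_⟩, fun h => absurd (Or.inr (by decide)) h⟩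
    rw [normalHom_of hω _ _ _ _ rfl rfl rfl rfl, map_one]
    try rw [map_zero]
    ext i j
    fin_cases i <;> fin_cases j <;> simp <;> grind
  · refine ⟨fun h => absurd h (by decide), fun _ => ⟨2, ?_⟩⟩
    rw [normalHom_of hω _ _ _ _ rfl rfl rfl rfl, map_one]
    try rw [map_zero]
    ext i j
    fin_cases i <;> fin_cases j <;> simp <;> grind
  · refine ⟨fun h => absurd h (by decide), fun _ => ⟨1, ?_⟩⟩
    rw [normalHom_of hω _ _ _ _ rfl rfl rfl rfl, map_one]
    try rw [map_zero]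
    ext i j
    fin_cases i <;> fin_cases j <;> simp <;> grind
  · refine ⟨fun h => absurd h (by decide), fun _ => ⟨0, ?_⟩⟩
    rw [normalHom_of hω _ _ _ _ rfl rfl rfl rfl, map_one]
    try rw [map_zero]
    ext i j
    fin_cases i <;> fin_cases j <;> simp <;> grind

theorem normalHom_injective {ω : k} (hω : ω ^ 2 + ω + 1 = 0) :
    Function.Injective (normalHom hω) := fun X Y h => by
  have e := congrArg (fun Z => normalBasis ω * Z * normalBasisInv ω) h
  simp only [normalHom, MonoidHom.coe_mk, OneHom.coe_mk, mul_assoc, normalBasis_mul hω,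
    mul_one] at e
  simp only [← mul_assoc, normalBasis_mul hω, one_mul] at e
  exact Matrix.map_injective (ZMod.castHom (dvd_refl 2) k).injective e

theorem trace_normalHom {ω : k} (hω : ω ^ 2 + ω + 1 = 0) (X : M2 (ZMod 2)) :
    (normalHom hω X).trace = ZMod.castHom (dvd_refl 2) k X.trace := by
  simp only [normalHom, MonoidHom.coe_mk, OneHom.coe_mk]
  rw [Matrix.trace_mul_comm, ← mul_assoc, normalBasis_mul hω, one_mul, Matrix.trace_fin_two,
    Matrix.trace_fin_two, map_add]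
  rfl

/-- A representation with values in `M2 (ZMod 2)` becomes dihedral in normal form. -/
theorem dihedral_normalHom {ω : k} (hω : ω ^ 2 + ω + 1 = 0) {r₀ : Gal →* M2 (ZMod 2)}
    {D : Finset ℕ} {δ : QBar} (hprime : ∀ ℓ ∈ D, ℓ.Prime)
    (hmod : (∏ ℓ ∈ D, ℓ) % 4 = 3) (hsq : δ ^ 2 = -((∏ ℓ ∈ D, ℓ : ℕ) : QBar))
    (hfix : ∀ σ : Gal, σ δ = δ ↔ r₀ σ = 1 ∨ (r₀ σ).trace = 1)
    (hrot : ∃ σ : Gal, (r₀ σ).trace = 1) (hlevel : GaloisFactorsThroughFiniteLevel r₀)
    (hunram : ∀ q : ℕ, q.Prime → q ≠ 2 → q ∉ D → ∀ A : ValuationSubring QBar,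
      A.LiesOverPrime q → ∀ τ ∈ A.inertiaSubgroupIn ℚ, r₀ τ = 1)
    (hinertia : ∀ ℓ ∈ D, ∀ A : ValuationSubring QBar, A.LiesOverPrime ℓ →
      ∀ τ ∈ A.inertiaSubgroupIn ℚ, (r₀ τ).trace = 0) :
    Dihedral ((normalHom hω).comp r₀) D δ := by
  have hdet : ∀ σ, (r₀ σ).det ≠ 0 := fun σ hd => by
    have h := congrArg Matrix.det (map_mul r₀ σ σ⁻¹).symm
    rw [Matrix.det_mul, hd, zero_mul, mul_inv_cancel, map_one, Matrix.det_one] at h
    exact zero_ne_one h
  refine ⟨hprime, hmod, hsq, ⟨ω, hω, fun σ =>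
    ⟨fun e => (normalHom_form hω (hdet σ)).1 ((hfix σ).mp e),
      fun e => (normalHom_form hω (hdet σ)).2 fun h => e ((hfix σ).mpr h)⟩⟩, ?_, ?_, ?_, ?_⟩
  · obtain ⟨σ, hσ⟩ := hrot
    exact ⟨σ, by
      rw [MonoidHom.comp_apply, trace_normalHom, hσ, map_one]; exact one_ne_zero⟩
  · obtain ⟨L, hL, hL'⟩ := hlevel
    exact ⟨L, hL, fun σ hσ => by rw [MonoidHom.comp_apply, hL' σ hσ, map_one]⟩
  · exact fun q hq h2 hD A hA τ hτ => by
      rw [MonoidHom.comp_apply, hunram q hq h2 hD A hA τ hτ, map_one]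
  · intro ℓ hℓ A hA τ hτ hτδ
    have h1 : r₀ τ = 1 := ((hfix τ).mp hτδ).resolve_right fun h => by
      rw [hinertia ℓ hℓ A hA τ hτ] at h
      exact zero_ne_one h
    rw [MonoidHom.comp_apply, h1, map_one]

end Fermat.Agent.Two.Tangent
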