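import Fermat.Agent.CFT.Tangent.LocalPlace
import Fermat.Agent.Arith.Frobenius
import Fermat.Agent.CFT.Flat.Slots
import Fermat.Prelude.Def_GaloisRep_Residual
import Mathlib.Algebra.CharP.Two

/-!
# Dihedral residual representations in characteristic two

The normal form of a residual representation with image `S₃` cut out by `δ = √(-∏ D)`, the
splitting of two by two matrices into their diagonal and off diagonal parts, the classes of the
Steinberg part and the condition at `2`.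
-/

set_option autoImplicit false
set_option linter.style.haveILetI false
set_option linter.unusedSectionVars false

noncomputable section

namespace Fermat.Agent.Two.Tangent

open scoped Classical

open Fermat.Agent.Deform Fermat.Agent.Arith
open Fermat.Agent.CFT.Flat (HasDeep hasDeep_zero)
open Fermat.Agent.CFT.Tangent (IsAdCocycle IsFiniteLevel cobdLin cobdLin_apply)

theorem rmul_inv {k : Type} [Field k] (r : Gal →* M2 k) (g : Gal) : r g * r g⁻¹ = 1 :=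
  CFT.Tangent.map_mul_inv r g

theorem rinv_mul {k : Type} [Field k] (r : Gal →* M2 k) (g : Gal) : r g⁻¹ * r g = 1 :=
  CFT.Tangent.map_inv_mul r g

/-- The residual representation: image the dihedral group of order six in normal form, reflections
exactly the elements moving `δ`, and the ramification of a semistable curve with good
supersingular reduction at `2`. -/
structure Dihedral {k : Type} [Field k] (r : Gal →* M2 k) (D : Finset ℕ) (δ : QBar) : Prop where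
  prime : ∀ ℓ ∈ D, ℓ.Prime
  mod_four : (∏ ℓ ∈ D, ℓ) % 4 = 3
  sq : δ ^ 2 = -((∏ ℓ ∈ D, ℓ : ℕ) : QBar)
  form : ∃ ω : k, ω ^ 2 + ω + 1 = 0 ∧ ∀ σ : Gal,
    (σ δ = δ → ∃ a : ℕ, r σ = !![ω ^ a, 0; 0, ω ^ (2 * a)]) ∧
      (σ δ ≠ δ → ∃ a : ℕ, r σ = !![0, ω ^ a; ω ^ (2 * a), 0])
  exists_trace_ne_zero : ∃ σ : Gal, (r σ).trace ≠ 0
  level : GaloisFactorsThroughFiniteLevel r
  unram : ∀ q : ℕ, q.Prime → q ≠ 2 → q ∉ D → ∀ A : ValuationSubring QBar, A.LiesOverPrime q →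
    ∀ τ ∈ A.inertiaSubgroupIn ℚ, r τ = 1
  inertia : ∀ ℓ ∈ D, ∀ A : ValuationSubring QBar, A.LiesOverPrime ℓ →
    ∀ τ ∈ A.inertiaSubgroupIn ℚ, τ δ = δ → r τ = 1

section Matrix

variable {k : Type} [Field k]

/-- The diagonal part. -/
def dM : M2 k →ₗ[k] M2 k where
  toFun X := !![X 0 0, 0; 0, X 1 1]
  map_add' X Y := by ext i j; fin_cases i <;> fin_cases j <;> simp
  map_smul' c X := by ext i j; fin_cases i <;> fin_cases j <;> simp

/-- The off diagonal part. -/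
def oM : M2 k →ₗ[k] M2 k where
  toFun X := !![0, X 0 1; X 1 0, 0]
  map_add' X Y := by ext i j; fin_cases i <;> fin_cases j <;> simp
  map_smul' c X := by ext i j; fin_cases i <;> fin_cases j <;> simp

theorem dM_apply (X : M2 k) : dM X = !![X 0 0, 0; 0, X 1 1] := rfl

theorem oM_apply (X : M2 k) : oM X = !![0, X 0 1; X 1 0, 0] := rfl

theorem dM_add_oM (X : M2 k) : dM X + oM X = X := by
  ext i j; fin_cases i <;> fin_cases j <;> simp [dM_apply, oM_apply]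

/-- A matrix with support a permutation. -/
def IsMonomial (M : M2 k) : Prop :=
  (M 0 1 = 0 ∧ M 1 0 = 0) ∨ (M 0 0 = 0 ∧ M 1 1 = 0)

theorem dM_mul_mul {M N : M2 k} (hM : IsMonomial M) (hN : IsMonomial N)
    (h : (M 0 1 = 0 ∧ M 1 0 = 0) ↔ (N 0 1 = 0 ∧ N 1 0 = 0)) (X : M2 k) :
    dM (M * X * N) = M * dM X * N := by
  rcases hM with ⟨h1, h2⟩ | ⟨h1, h2⟩
  · obtain ⟨h3, h4⟩ := h.mp ⟨h1, h2⟩
    ext i j
    fin_cases i <;> fin_cases j <;>
      simp [dM_apply, Matrix.mul_apply, Fin.sum_univ_two, h1, h2, h3, h4]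
  · by_cases hd : M 0 1 = 0 ∧ M 1 0 = 0
    · obtain ⟨h3, h4⟩ := h.mp hd
      ext i j
      fin_cases i <;> fin_cases j <;>
        simp [dM_apply, Matrix.mul_apply, Fin.sum_univ_two, h1, h2, hd.1, hd.2]
    · obtain ⟨h3, h4⟩ : N 0 0 = 0 ∧ N 1 1 = 0 := hN.resolve_left fun h' => hd (h.mpr h')
      ext i j
      fin_cases i <;> fin_cases j <;>
        simp [dM_apply, Matrix.mul_apply, Fin.sum_univ_two, h1, h2, h3, h4]

variable [CharP k 2]

theorem omega_cube {ω : k} (hω : ω ^ 2 + ω + 1 = 0) : ω ^ 3 = 1 := by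
  linear_combination (ω - 1) * hω

theorem omega_ne_one {ω : k} (hω : ω ^ 2 + ω + 1 = 0) : ω ≠ 1 := fun h => by
  have h2 : (2 : k) = 0 := CharTwo.two_eq_zero
  rw [h] at hω
  exact one_ne_zero (show (1 : k) = 0 by linear_combination hω - h2)

theorem omega_pow_cases {ω : k} (hω : ω ^ 2 + ω + 1 = 0) (a : ℕ) :
    (ω ^ a = 1 ∧ ω ^ (2 * a) = 1 ∧ a % 3 = 0) ∨
      (ω ^ a = ω ∧ ω ^ (2 * a) = ω ^ 2 ∧ a % 3 = 1) ∨
      (ω ^ a = ω ^ 2 ∧ ω ^ (2 * a) = ω ∧ a % 3 = 2) := by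
  have h3 := omega_cube hω
  rw [pow_eq_pow_mod a h3, pow_eq_pow_mod (2 * a) h3]
  rcases (show a % 3 = 0 ∨ a % 3 = 1 ∨ a % 3 = 2 by omega) with e | e | e
  · exact Or.inl ⟨by rw [e, pow_zero], by rw [show 2 * a % 3 = 0 by omega, pow_zero], e⟩
  · exact Or.inr (Or.inl ⟨by rw [e, pow_one], by rw [show 2 * a % 3 = 2 by omega], e⟩)
  · exact Or.inr (Or.inr ⟨by rw [e], by rw [show 2 * a % 3 = 1 by omega, pow_one], e⟩)

theorem trace_rot {ω : k} (hω : ω ^ 2 + ω + 1 = 0) (a : ℕ) :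
    (Matrix.trace !![ω ^ a, 0; 0, ω ^ (2 * a)] = 0 ∧ a % 3 = 0) ∨
      (Matrix.trace !![ω ^ a, 0; 0, ω ^ (2 * a)] = 1 ∧ a % 3 ≠ 0) := by
  have h2 : (2 : k) = 0 := CharTwo.two_eq_zero
  rcases omega_pow_cases hω a with ⟨e1, e2, e⟩ | ⟨e1, e2, e⟩ | ⟨e1, e2, e⟩
  · refine Or.inl ⟨?_, e⟩
    rw [Matrix.trace_fin_two_of, e1, e2]; linear_combination h2
  · refine Or.inr ⟨?_, by omega⟩
    rw [Matrix.trace_fin_two_of, e1, e2]; linear_combination hω - h2
  · refine Or.inr ⟨?_, by omega⟩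
    rw [Matrix.trace_fin_two_of, e1, e2]; linear_combination hω - h2

end Matrix

namespace Dihedral

variable {k : Type} [Field k] {r : Gal →* M2 k} {D : Finset ℕ} {δ : QBar}
  (h : Dihedral r D δ)

include h

theorem ne_two {ℓ : ℕ} (hℓ : ℓ ∈ D) : ℓ ≠ 2 := by
  rintro rfl
  have h1 := h.mod_four
  have h2 : 2 ∣ ∏ ℓ ∈ D, ℓ := Finset.dvd_prod_of_mem _ hℓ
  omega

theorem prod_pos : 0 < ∏ ℓ ∈ D, ℓ := Finset.prod_pos fun ℓ hℓ => (h.prime ℓ hℓ).pos

theorem delta_ne_zero : δ ≠ 0 := fun e => by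
  have h1 := h.sq
  rw [e, zero_pow two_ne_zero, zero_eq_neg, Nat.cast_eq_zero] at h1
  exact h.prod_pos.ne' h1

theorem delta_or_neg (σ : Gal) : σ δ = δ ∨ σ δ = -δ := by
  refine sq_eq_sq_iff_eq_or_eq_neg.mp ?_
  rw [← map_pow, h.sq, map_neg, map_natCast]

theorem exists_move : ∃ σ : Gal, σ δ ≠ δ := by
  by_contra! hall
  haveI := qBar_isGalois
  obtain ⟨x, hx⟩ := (IntermediateField.mem_bot).mp
    ((InfiniteGalois.mem_bot_iff_fixed δ).mpr hall)
  have h1 := h.sq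
  rw [← hx, ← map_pow, ← map_natCast (algebraMap ℚ QBar), ← map_neg] at h1
  have h2 := (algebraMap ℚ QBar).injective h1
  have h3 : (0 : ℚ) < ((∏ ℓ ∈ D, ℓ : ℕ) : ℚ) := Nat.cast_pos.mpr h.prod_pos
  nlinarith [sq_nonneg x]

theorem isMonomial (σ : Gal) : IsMonomial (r σ) := by
  obtain ⟨ω, -, hf⟩ := h.form
  by_cases e : σ δ = δ
  · obtain ⟨a, ha⟩ := (hf σ).1 e
    exact Or.inl ⟨by rw [ha]; rfl, by rw [ha]; rfl⟩
  · obtain ⟨a, ha⟩ := (hf σ).2 e
    exact Or.inr ⟨by rw [ha]; rfl, by rw [ha]; rfl⟩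

theorem omega_ne_zero {ω : k} (hω : ω ^ 2 + ω + 1 = 0) : ω ≠ 0 := fun e => by simp [e] at hω

/-- The diagonal elements are exactly those fixing `δ`. -/
theorem diag_iff (σ : Gal) : (r σ 0 1 = 0 ∧ r σ 1 0 = 0) ↔ σ δ = δ := by
  obtain ⟨ω, hω, hf⟩ := h.form
  refine ⟨fun hd => by_contra fun e => ?_, fun e => ?_⟩
  · obtain ⟨a, ha⟩ := (hf σ).2 e
    have h1 := hd.1
    rw [ha] at h1
    exact pow_ne_zero a (h.omega_ne_zero hω) (by simpa using h1)
  · obtain ⟨a, ha⟩ := (hf σ).1 e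
    exact ⟨by rw [ha]; rfl, by rw [ha]; rfl⟩

theorem inv_fix_iff (σ : Gal) : σ⁻¹ δ = δ ↔ σ δ = δ :=
  ⟨fun e => by conv_lhs => rw [← e]
               exact σ.apply_symm_apply δ,
   fun e => by conv_lhs => rw [← e]
               exact σ.symm_apply_apply δ⟩

theorem dM_conj (σ : Gal) (X : M2 k) : dM (r σ * X * r σ⁻¹) = r σ * dM X * r σ⁻¹ :=
  dM_mul_mul (h.isMonomial σ) (h.isMonomial σ⁻¹)
    (by rw [h.diag_iff, h.diag_iff, h.inv_fix_iff]) X

theorem oM_conj (σ : Gal) (X : M2 k) : oM (r σ * X * r σ⁻¹) = r σ * oM X * r σ⁻¹ := by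
  have e1 := dM_add_oM (r σ * X * r σ⁻¹)
  have e2 : r σ * dM X * r σ⁻¹ + r σ * oM X * r σ⁻¹ = r σ * X * r σ⁻¹ := by
    rw [← add_mul, ← mul_add, dM_add_oM]
  rw [h.dM_conj] at e1
  exact add_left_cancel (e1.trans e2.symm)

theorem fix_of_eq_one {σ : Gal} (e : r σ = 1) : σ δ = δ :=
  (h.diag_iff σ).mp (by rw [e]; exact ⟨rfl, rfl⟩)

variable [CharP k 2]

theorem trace_of_move {σ : Gal} (e : σ δ ≠ δ) : (r σ).trace = 0 := by
  obtain ⟨ω, -, hf⟩ := h.form
  obtain ⟨a, ha⟩ := (hf σ).2 e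
  rw [ha, Matrix.trace_fin_two_of, add_zero]

theorem sq_of_move {σ : Gal} (e : σ δ ≠ δ) : r σ * r σ = 1 := by
  obtain ⟨ω, hω, hf⟩ := h.form
  obtain ⟨a, ha⟩ := (hf σ).2 e
  have h3 : ω ^ a * ω ^ (2 * a) = 1 := by
    rw [← pow_add, show a + 2 * a = 3 * a by ring, pow_mul, omega_cube hω, one_pow]
  rw [ha, Matrix.mul_fin_two, Matrix.one_fin_two]
  simp [h3, mul_comm (ω ^ (2 * a))]

theorem inv_of_move {σ : Gal} (e : σ δ ≠ δ) : r σ⁻¹ = r σ := by
  calc r σ⁻¹ = r σ⁻¹ * (r σ * r σ) := by rw [h.sq_of_move e, mul_one]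
    _ = r σ := by rw [← mul_assoc, rinv_mul, one_mul]

theorem trace_eq_one {σ : Gal} (e : (r σ).trace ≠ 0) : (r σ).trace = 1 := by
  obtain ⟨ω, hω, hf⟩ := h.form
  by_cases hσ : σ δ = δ
  · obtain ⟨a, ha⟩ := (hf σ).1 hσ
    rw [ha] at e ⊢
    exact ((trace_rot hω a).resolve_left fun hh => e hh.1).1
  · exact absurd (h.trace_of_move hσ) e

theorem eq_one_of_fix {σ : Gal} (hσ : σ δ = δ) (e : (r σ).trace = 0) : r σ = 1 := by
  obtain ⟨ω, hω, hf⟩ := h.form
  obtain ⟨a, ha⟩ := (hf σ).1 hσ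
  rw [ha] at e ⊢
  rcases trace_rot hω a with ⟨-, e'⟩ | ⟨e', -⟩
  · rcases omega_pow_cases hω a with ⟨e1, e2, -⟩ | ⟨-, -, e1⟩ | ⟨-, -, e1⟩
    · rw [e1, e2, Matrix.one_fin_two]
    all_goals omega
  · rw [e] at e'
    exact absurd e' zero_ne_one

/-- Every rotation and every reflection is a value. -/
theorem exists_eq_rot {ω : k} (hω : ω ^ 2 + ω + 1 = 0)
    (hf : ∀ σ : Gal, σ δ = δ → ∃ a : ℕ, r σ = !![ω ^ a, 0; 0, ω ^ (2 * a)]) (b : ℕ) :
    ∃ σ : Gal, σ δ = δ ∧ r σ = !![ω ^ b, 0; 0, ω ^ (2 * b)] := by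
  obtain ⟨σ, hσ⟩ := h.exists_trace_ne_zero
  have hfix : σ δ = δ := by_contra fun e => hσ (h.trace_of_move e)
  obtain ⟨a, ha⟩ := hf σ hfix
  have ha3 : a % 3 ≠ 0 := by
    rw [ha] at hσ
    exact ((trace_rot hω a).resolve_left fun hh => hσ hh.1).2
  have hpow : ∀ n : ℕ, r (σ ^ n) = !![ω ^ (a * n), 0; 0, ω ^ (2 * (a * n))] := fun n => by
    induction n with
    | zero => simp [Matrix.one_fin_two]
    | succ n ih =>
      rw [pow_succ, map_mul, ih, ha, Matrix.mul_fin_two]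
      simp only [mul_zero, zero_mul, add_zero, zero_add, ← pow_add]
      ring_nf
  have hfixpow : ∀ n : ℕ, (σ ^ n) δ = δ := fun n => by
    induction n with
    | zero => rfl
    | succ n ih => rw [pow_succ, AlgEquiv.mul_apply, hfix, ih]
  refine ⟨σ ^ (a * b), hfixpow _, ?_⟩
  have hmod : a * (a * b) % 3 = b % 3 := by
    rcases (show a % 3 = 1 ∨ a % 3 = 2 by omega) with e | e <;>
      simp [Nat.mul_mod, e]; omega
  rw [hpow, pow_eq_pow_mod _ (omega_cube hω), hmod, ← pow_eq_pow_mod _ (omega_cube hω),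
    pow_eq_pow_mod (2 * (a * (a * b))) (omega_cube hω), Nat.mul_mod, hmod, ← Nat.mul_mod,
    ← pow_eq_pow_mod _ (omega_cube hω)]

end Dihedral

/-- Every additive functional of `f` has a radical congruent to one modulo `π ^ 5` over tame
inertia at `2`. -/
def Deep {X : Type} [AddCommMonoid X] (f : Gal → X) : Prop :=
  ∀ l : X →+ ZMod 2, HasDeep 2 (fun σ => l (f σ)) 5

theorem Deep.map {X Y : Type} [AddCommMonoid X] [AddCommMonoid Y] {f : Gal → X} (hf : Deep f)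
    (L : X →+ Y) : Deep fun σ => L (f σ) := fun l => hf (l.comp L)

theorem Deep.add {X : Type} [AddCommMonoid X] {f g : Gal → X} (hf : Deep f) (hg : Deep g) :
    Deep (f + g) := fun l => by
  have h := (hf l).add (by norm_num) (hg l)
  refine h.congr fun σ _ => ?_
  simp only [Pi.add_apply, map_add]

theorem Deep.zero {X : Type} [AddCommMonoid X] : Deep (0 : Gal → X) := fun l =>
  (hasDeep_zero 5).congr fun σ _ => by simp

theorem Deep.smul {k : Type} [Field k] {X : Type} [AddCommGroup X] [Module k X] {f : Gal → X}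
    (hf : Deep f) (c : k) : Deep (c • f) :=
  hf.map (DistribSMul.toAddMonoidHom X c)

/-- The classes of the Steinberg part unramified over the splitting field outside `2` and `V`. -/
structure IsOffClass {k : Type} [Field k] (r : Gal →* M2 k) (V : Finset ℕ)
    (x : Gal → M2 k) : Prop where
  cocycle : IsAdCocycle r x
  level : IsFiniteLevel x
  off : ∀ σ, dM (x σ) = 0
  unram : ∀ q : ℕ, q.Prime → q ≠ 2 → q ∉ V → ∀ A : ValuationSubring QBar, A.LiesOverPrime q →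
    ∀ τ ∈ A.inertiaSubgroupIn ℚ, r τ = 1 → x τ = 0
  deep : Deep x

/-- The Frobenius functional of a class. -/
def evTr {k : Type} [Field k] (r : Gal →* M2 k) (b : Gal → M2 k) (g : Gal) : k :=
  (b g * r g).trace

theorem evTr_cobdLin {k : Type} [Field k] (r : Gal →* M2 k) (X : M2 k) (g : Gal) :
    evTr r (cobdLin r X) g = 0 := by
  rw [evTr, cobdLin_apply, sub_mul, Matrix.trace_sub, mul_assoc (r g * X), rinv_mul, mul_one,
    Matrix.trace_mul_comm, sub_self]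

theorem evTr_conj {k : Type} [Field k] {r : Gal →* M2 k} {b : Gal → M2 k} (hb : IsAdCocycle r b)
    (s t : Gal) : evTr r b (s * t * s⁻¹) = evTr r b t := by
  unfold evTr
  rw [hb.conj s t, sub_mul, add_mul, Matrix.trace_sub, Matrix.trace_add,
    mul_assoc (r (s * t * s⁻¹) * b s), rinv_mul, mul_one,
    Matrix.trace_mul_comm (r (s * t * s⁻¹)) (b s), add_sub_cancel_right, map_mul, map_mul]
  calc (r s * b t * r s⁻¹ * (r s * r t * r s⁻¹)).trace
      = (r s * b t * (r s⁻¹ * r s) * r t * r s⁻¹).trace := by simp only [mul_assoc]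
    _ = (b t * r t).trace := by
      rw [rinv_mul, mul_one, Matrix.trace_mul_comm, ← mul_assoc, ← mul_assoc, rinv_mul,
        one_mul]

/-- The auxiliary set `V`: inert primes `1` mod `4` whose Frobenius functionals form a basis of the
dual of the classes unramified outside `2` modulo coboundaries. -/
structure IsDetecting {k : Type} [Field k] (r : Gal →* M2 k) (D : Finset ℕ) (δ : QBar)
    (V : Finset ℕ) (φ : ℕ → Gal) : Prop where
  prime : ∀ v ∈ V, v.Prime ∧ v % 4 = 1 ∧ v ∉ D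
  frob : ∀ v ∈ V, ∀ [Fact v.Prime], (padicPlace v).IsFrobeniusAt (φ v) v ∧ φ v δ ≠ δ
  dual : ∀ v ∈ V, ∃ x : Gal → M2 k, IsOffClass r ∅ x ∧
    ∀ w ∈ V, evTr r x (φ w) = if w = v then 1 else 0
  detect : ∀ x : Gal → M2 k, IsOffClass r ∅ x → (∀ v ∈ V, evTr r x (φ v) = 0) →
    ∃ X : M2 k, x = cobdLin r X

/-- Finiteness of the characters of the splitting field unramified outside `2`. -/
def HKummerFinite {k : Type} [Field k] (r : Gal →* M2 k) : Prop :=
  ∃ L : IntermediateField ℚ QBar, FiniteDimensional ℚ L ∧ ∀ ψ : Gal → ZMod 2, IsFiniteLevel ψ →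
    (∀ g h, r g = 1 → r h = 1 → ψ (g * h) = ψ g + ψ h) →
    (∀ q : ℕ, q.Prime → q ≠ 2 → ∀ A : ValuationSubring QBar, A.LiesOverPrime q →
      ∀ τ ∈ A.inertiaSubgroupIn ℚ, r τ = 1 → ψ τ = 0) →
    ∀ σ : Gal, r σ = 1 → (∀ x ∈ L, σ x = x) → ψ σ = 0

theorem map_of_map_eq_one {k : Type} [Field k] {r : Gal →* M2 k} {b : Gal → M2 k}
    (hb : IsAdCocycle r b) (s : Gal) {t : Gal} (ht : r t = 1) :
    b (s * t * s⁻¹) = r s * b t * r s⁻¹ := by
  have h1 : r (s * t * s⁻¹) = 1 := by rw [map_mul, map_mul, ht, mul_one, rmul_inv]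
  have h2 : r (s * t * s⁻¹)⁻¹ = 1 := by
    have e := rmul_inv r (s * t * s⁻¹)
    rwa [h1, one_mul] at e
  rw [hb.conj s t, h1, h2, one_mul, mul_one, add_sub_cancel_right]

end Fermat.Agent.Two.Tangent
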