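import Mathlib

/-!
# Generation of the principal congruence subgroup of `SL₂(ℤ/2ⁿ)` by three transvections
-/

set_option autoImplicit false

noncomputable section

namespace Fermat.Agent.Two.Tangent

open Matrix

variable {n : ℕ}

/-- Reduction modulo `2`. -/
def red2 (hn : 0 < n) : Matrix (Fin 2) (Fin 2) (ZMod (2 ^ n)) →+* Matrix (Fin 2) (Fin 2) (ZMod 2) :=
  (ZMod.castHom (dvd_pow_self 2 hn.ne') (ZMod 2)).mapMatrix

theorem exists_eq_two_mul_of_red (hn : 0 < n) {a : ZMod (2 ^ n)}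
    (ha : ZMod.castHom (dvd_pow_self 2 hn.ne') (ZMod 2) a = 0) : ∃ b, a = 2 * b := by
  obtain ⟨z, rfl⟩ := ZMod.intCast_surjective a
  rw [map_intCast, ZMod.intCast_zmod_eq_zero_iff_dvd] at ha
  obtain ⟨c, rfl⟩ := ha
  exact ⟨c, by push_cast; ring⟩

theorem exists_eq_two_mul_of_red2 (hn : 0 < n) {A : Matrix (Fin 2) (Fin 2) (ZMod (2 ^ n))}
    (hA : red2 hn A = 0) : ∃ B, A = 2 * B := by
  have h : ∀ i j, ∃ b, A i j = 2 * b := fun i j =>
    exists_eq_two_mul_of_red hn (by simpa [red2] using congrFun (congrFun hA i) j)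
  choose B hB using h
  refine ⟨Matrix.of B, ?_⟩
  ext i j
  rw [two_mul, Matrix.add_apply, hB i j, two_mul]
  rfl

/-- The three involutions of `GL₂(𝔽₂)`. -/
theorem involution_cases : ∀ X : Matrix (Fin 2) (Fin 2) (ZMod 2), X * X = 1 → X ≠ 1 →
    X = !![1, 1; 0, 1] ∨ X = !![1, 0; 1, 1] ∨ X = !![0, 1; 1, 0] := by
  decide

/-- Three distinct involutions span the matrices of trace zero. -/
theorem exists_combination (T : Fin 3 → Matrix (Fin 2) (Fin 2) (ZMod 2))
    (hT : ∀ i, T i * T i = 1 ∧ T i ≠ 1) (hinj : Function.Injective T)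
    (B : Matrix (Fin 2) (Fin 2) (ZMod 2)) (hB : B.trace = 0) :
    ∃ c : Fin 3 → ℕ, B = c 0 • (T 0 - 1) + c 1 • (T 1 - 1) + c 2 • (T 2 - 1) := by
  obtain ⟨h01, h02, h12⟩ : T 0 ≠ T 1 ∧ T 0 ≠ T 2 ∧ T 1 ≠ T 2 :=
    ⟨hinj.ne (by decide), hinj.ne (by decide), hinj.ne (by decide)⟩
  have key : ∀ B : Matrix (Fin 2) (Fin 2) (ZMod 2), B.trace = 0 → ∃ a b c : Fin 2,
      B = (a : ℕ) • (!![1, 1; 0, 1] - 1) + (b : ℕ) • (!![1, 0; 1, 1] - 1) +
        (c : ℕ) • (!![0, 1; 1, 0] - 1) := by decide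
  obtain ⟨a, b, c, rfl⟩ := key B hB
  rcases involution_cases _ (hT 0).1 (hT 0).2 with e0 | e0 | e0 <;>
    rcases involution_cases _ (hT 1).1 (hT 1).2 with e1 | e1 | e1 <;>
      rcases involution_cases _ (hT 2).1 (hT 2).2 with e2 | e2 | e2 <;>
        simp only [e0, e1, e2, ne_eq, not_true] at h01 h02 h12
  · exact ⟨![a, b, c], by simp [e0, e1, e2]⟩
  · exact ⟨![a, c, b], by simp [e0, e1, e2]; abel⟩
  · exact ⟨![b, a, c], by simp [e0, e1, e2]; abel⟩
  · exact ⟨![b, c, a], by simp [e0, e1, e2]; abel⟩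
  · exact ⟨![c, a, b], by simp [e0, e1, e2]; abel⟩
  · exact ⟨![c, b, a], by simp [e0, e1, e2]; abel⟩

theorem one_add_pow {R : Type*} [Ring R] {Y : R} (hY : Y * Y = 0) (m : ℕ) :
    (1 + Y) ^ m = 1 + m • Y := by
  induction m with
  | zero => simp
  | succ m ih =>
    rw [pow_succ, ih, add_mul, one_mul, smul_mul_assoc, mul_add, mul_one, hY, add_zero, succ_nsmul]
    abel

/-- **Successive approximation.** A matrix of determinant one congruent to `1` modulo `2` is a
product of the elements `1 + 2 N i`, when the `N i` have square zero and span the trace zero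
matrices modulo `2`. -/
theorem mem_closure_of_det_one (hn : 0 < n) (N : Fin 3 → Matrix (Fin 2) (Fin 2) (ZMod (2 ^ n)))
    (hN : ∀ i, N i * N i = 0) (hNd : ∀ i, (1 + 2 * N i).det = 1)
    (hspan : ∀ B : Matrix (Fin 2) (Fin 2) (ZMod 2), B.trace = 0 → ∃ c : Fin 3 → ℕ,
      B = c 0 • red2 hn (N 0) + c 1 • red2 hn (N 1) + c 2 • red2 hn (N 2))
    {A : Matrix (Fin 2) (Fin 2) (ZMod (2 ^ n))} (hd : A.det = 1) (hA : red2 hn A = 1) :
    A ∈ Submonoid.closure (Set.range fun i => 1 + 2 * N i) := by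
  set C := Submonoid.closure (Set.range fun i => 1 + 2 * N i)
  have h2n : (2 : ZMod (2 ^ n)) ^ n = 0 := by
    have := ZMod.natCast_self (2 ^ n)
    push_cast at this
    exact this
  have hgen : ∀ i, (1 + 2 * N i) ∈ C := fun i => Submonoid.subset_closure ⟨i, rfl⟩
  -- the elements `1 + 2 ^ j N i` for `1 ≤ j`
  have hpow : ∀ (i : Fin 3) (j m : ℕ), (1 + 2 * N i) ^ (2 ^ j * m) =
      1 + (2 ^ (j + 1) * m : ZMod (2 ^ n)) • N i := fun i j m => by
    rw [one_add_pow (by rw [two_mul, add_mul, mul_add, hN i]; simp), two_mul, ← two_nsmul,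
      ← mul_nsmul', ← Nat.cast_smul_eq_nsmul (ZMod (2 ^ n))]
    push_cast
    ring_nf
  have main : ∀ d j : ℕ, j + 1 + d = n → ∀ A : Matrix (Fin 2) (Fin 2) (ZMod (2 ^ n)), A.det = 1 →
      (∃ B, A = 1 + ((2 : ZMod (2 ^ n)) ^ (j + 1)) • B) → A ∈ C := by
    intro d
    induction d with
    | zero =>
      rintro j hj A - ⟨B, rfl⟩
      rw [show j + 1 = n by omega, h2n, zero_smul, add_zero]
      exact one_mem C
    | succ d ih =>
      rintro j hj A hd ⟨B, rfl⟩
      set t : ZMod (2 ^ n) := 2 ^ (j + 1) with ht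
      -- the trace of `B` is even
      have htr : ZMod.castHom (dvd_pow_self 2 hn.ne') (ZMod 2) B.trace = 0 := by
        have e : t * (B.trace + t * B.det) = 0 := by
          rw [Matrix.det_fin_two] at hd ⊢
          rw [Matrix.trace_fin_two]
          simp only [Matrix.add_apply, Matrix.smul_apply, smul_eq_mul, Matrix.one_apply_eq,
            Matrix.one_apply_ne (show (0 : Fin 2) ≠ 1 by decide),
            Matrix.one_apply_ne (show (1 : Fin 2) ≠ 0 by decide)] at hd
          linear_combination hd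
        obtain ⟨z, hz⟩ := ZMod.intCast_surjective (B.trace + t * B.det)
        have hz2 : (2 : ℤ) ∣ z := by
          have e' : (((2 : ℤ) ^ (j + 1) * z : ℤ) : ZMod (2 ^ n)) = 0 := by
            push_cast; rw [hz]; exact e
          rw [ZMod.intCast_zmod_eq_zero_iff_dvd, Nat.cast_pow, Nat.cast_ofNat,
            show n = (j + 1) + (d + 1) by omega, pow_add] at e'
          exact (dvd_pow_self _ d.succ_ne_zero).trans
            ((mul_dvd_mul_iff_left (pow_ne_zero _ two_ne_zero)).mp e')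
        have e2 := congrArg (ZMod.castHom (dvd_pow_self 2 hn.ne') (ZMod 2)) hz
        rw [map_intCast, (ZMod.intCast_zmod_eq_zero_iff_dvd z 2).mpr hz2, map_add, map_mul, ht,
          map_pow, map_ofNat, show (2 : ZMod 2) = 0 from rfl, zero_pow (by omega), zero_mul,
          add_zero] at e2
        exact e2.symm
      obtain ⟨c, hc⟩ := hspan (red2 hn B) (by
        rw [Matrix.trace_fin_two] at htr ⊢
        rw [map_add] at htr
        simpa [red2] using htr)
      obtain ⟨B₁, hB₁⟩ := exists_eq_two_mul_of_red2 hn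
        (A := B - (c 0 • N 0 + c 1 • N 1 + c 2 • N 2)) (by
          rw [map_sub, map_add, map_add, map_nsmul, map_nsmul, map_nsmul, ← hc, sub_self])
      -- multiply by the inverse of the three correcting factors
      set Y : Fin 3 → Matrix (Fin 2) (Fin 2) (ZMod (2 ^ n)) :=
        fun i => (t * (c i : ZMod (2 ^ n))) • N i with hY
      have hYmem : ∀ i, 1 + Y i ∈ C := fun i => by
        rw [hY, ← hpow i j (c i)]
        exact pow_mem (hgen i) _
      have hYsq : ∀ i, Y i * Y i = 0 := fun i => by simp [hY, hN i]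
      have hYd : ∀ i, (1 + Y i).det = 1 := fun i => by
        rw [hY, ← hpow i j (c i), Matrix.det_pow, hNd, one_pow]
      set A' := (1 - Y 0) * ((1 - Y 1) * ((1 - Y 2) * (1 + t • B)))
      have hback : (1 + Y 2) * ((1 + Y 1) * ((1 + Y 0) * A')) = 1 + t • B := by
        have hu : ∀ i (Z : Matrix (Fin 2) (Fin 2) (ZMod (2 ^ n))),
            (1 + Y i) * ((1 - Y i) * Z) = Z := fun i Z => by
          rw [← mul_assoc, add_mul, mul_sub, mul_sub, hYsq i]
          simp
        simp only [A', hu]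
      have hA'd : A'.det = 1 := by
        have := congrArg Matrix.det hback
        rw [Matrix.det_mul, Matrix.det_mul, Matrix.det_mul, hYd, hYd, hYd, hd] at this
        simpa using this
      have hA'B : ∃ B', A' = 1 + ((2 : ZMod (2 ^ n)) ^ (j + 1 + 1)) • B' := by
        set Ns : Fin 3 → Matrix (Fin 2) (Fin 2) (ZMod (2 ^ n)) :=
          fun i => (c i : ZMod (2 ^ n)) • N i with hNs
        have eY : ∀ i, Y i = t • Ns i := fun i => by rw [hY, hNs, smul_smul]
        have eB : B = Ns 0 + Ns 1 + Ns 2 + (2 : ZMod (2 ^ n)) • B₁ := by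
          rw [← sub_eq_iff_eq_add', hNs]
          simp only [Nat.cast_smul_eq_nsmul]
          rw [hB₁, two_mul, two_smul]
        set u : ZMod (2 ^ n) := 2 ^ j with hu'
        have etu : t = 2 * u := by rw [ht, hu', pow_succ']
        refine ⟨B₁ + u • (Ns 1 * Ns 2 + Ns 0 * Ns 1 + Ns 0 * Ns 2 - (Ns 0 + Ns 1 + Ns 2) * B)
          + (u * t) • ((Ns 1 * Ns 2 + Ns 0 * Ns 1 + Ns 0 * Ns 2) * B - Ns 0 * Ns 1 * Ns 2)
          - (u * t * t) • (Ns 0 * Ns 1 * Ns 2 * B), ?_⟩
        rw [show (2 : ZMod (2 ^ n)) ^ (j + 1 + 1) = t * 2 by rw [ht, pow_succ]]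
        have expand : A' = 1 + t • (B - (Ns 0 + Ns 1 + Ns 2))
            + (t * t) • (Ns 1 * Ns 2 + Ns 0 * Ns 1 + Ns 0 * Ns 2 - (Ns 0 + Ns 1 + Ns 2) * B)
            + (t * t * t) • ((Ns 1 * Ns 2 + Ns 0 * Ns 1 + Ns 0 * Ns 2) * B - Ns 0 * Ns 1 * Ns 2)
            - (t * t * t * t) • (Ns 0 * Ns 1 * Ns 2 * B) := by
          simp only [A', eY, sub_mul, mul_sub, mul_add, add_mul, one_mul, mul_one, smul_mul_assoc,
            mul_smul_comm, smul_smul, smul_sub, smul_add, mul_assoc]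
          abel
        rw [expand, show B - (Ns 0 + Ns 1 + Ns 2) = (2 : ZMod (2 ^ n)) • B₁ by rw [eB]; abel, etu]
        simp only [smul_add, smul_sub, smul_smul]
        match_scalars <;> ring
      rw [← hback]
      exact mul_mem (hYmem 2) (mul_mem (hYmem 1) (mul_mem (hYmem 0)
        (ih (j + 1) (by omega) A' hA'd hA'B)))
  obtain ⟨B, hB⟩ := exists_eq_two_mul_of_red2 hn (A := A - 1) (by rw [map_sub, hA, map_one, sub_self])
  refine main (n - 1) 0 (by omega) A hd ⟨B, ?_⟩
  rw [zero_add, pow_one, two_smul, ← two_mul, ← hB, add_sub_cancel]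

end Fermat.Agent.Two.Tangent
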