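import Mathlib
import Fermat.Agent.Two.Tangent.Basic
import Fermat.Agent.Two.Tangent.SLTwo
import Fermat.Agent.Arith.Chebotarev.Crossing

/-!
# The Frobenius functionals on unipotent elements detect the Steinberg classes

An off-diagonal cocycle whose functional vanishes on every element fixing `μ_M`, unipotent modulo
`2 ^ N` and nontrivial modulo `2`, is a coboundary.
-/

set_option autoImplicit false
set_option linter.unusedSectionVars false
set_option linter.style.haveILetI false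

noncomputable section

namespace Fermat.Agent.Two.Tangent

open Fermat.Agent.Deform Fermat.Agent.Arith Matrix
open Fermat.Agent.CFT.Tangent (IsAdCocycle IsFiniteLevel cobdLin cobdLin_apply)

/-- Fixing the roots of unity of order dividing `M`. -/
def FixesMu (M : ℕ) (g : Gal) : Prop := ∀ z : QBar, z ^ M = 1 → g z = z

/-- The elements fixing `μ_M`, of trace two under `ρ` and nontrivial under `r`. -/
def AuxSet {k : Type} [Field k] (r : Gal →* M2 k) {n : ℕ} (ρ : Gal →* M2 (ZMod n)) (M : ℕ) :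
    Set Gal :=
  {g | FixesMu M g ∧ (ρ g).trace = 2 ∧ r g ≠ 1}

theorem FixesMu.conj {M : ℕ} {g : Gal} (hg : FixesMu M g) (s : Gal) :
    FixesMu M (s * g * s⁻¹) := fun z hz => by
  rw [AlgEquiv.mul_apply, AlgEquiv.mul_apply, hg _ (by rw [← map_pow, hz, map_one])]
  exact s.apply_symm_apply z

theorem FixesMu.one (M : ℕ) : FixesMu M (1 : Gal) := fun _ _ => rfl

theorem FixesMu.mul {M : ℕ} {g h : Gal} (hg : FixesMu M g) (hh : FixesMu M h) :
    FixesMu M (g * h) := fun z hz => by rw [AlgEquiv.mul_apply, hh z hz, hg z hz]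

theorem FixesMu.inv {M : ℕ} {g : Gal} (hg : FixesMu M g) : FixesMu M g⁻¹ := fun z hz => by
  conv_lhs => rw [← hg z hz]
  exact g.symm_apply_apply z

theorem fixesMu_of_autToPow {M : ℕ} [NeZero M] {ζ : QBar} (hζ : IsPrimitiveRoot ζ M) {g : Gal}
    (hg : hζ.autToPow ℚ g = 1) : FixesMu M g := fun z hz => by
  obtain ⟨i, -, rfl⟩ := hζ.eq_pow_of_pow_eq_one hz
  rw [map_pow]
  congr 1
  have e := hζ.autToPow_spec ℚ g
  rw [hg, Units.val_one] at e
  rcases eq_or_ne M 1 with rfl | hM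
  · rw [IsPrimitiveRoot.one_right_iff.mp hζ, map_one]
  · haveI : Fact (1 < M) := ⟨by have := NeZero.ne M; omega⟩
    rw [ZMod.val_one, pow_one] at e
    exact e.symm

theorem fixesMu_commutator {M : ℕ} (hM : M ≠ 0) (a b : Gal) : FixesMu M (a * b * a⁻¹ * b⁻¹) := by
  haveI : NeZero M := ⟨hM⟩
  obtain ⟨ζ, hζ⟩ := HasEnoughRootsOfUnity.exists_primitiveRoot QBar M
  refine fixesMu_of_autToPow hζ ?_
  simp only [map_mul, map_inv]
  rw [mul_comm (hζ.autToPow ℚ a) (hζ.autToPow ℚ b), mul_inv_cancel_right, mul_inv_cancel]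

theorem sq_sub_one_eq_zero {R : Type} [CommRing R] {A : M2 R} (ht : A.trace = 2)
    (hd : A.det = 1) : (A - 1) * (A - 1) = 0 := by
  rw [Matrix.trace_fin_two] at ht
  rw [Matrix.det_fin_two] at hd
  ext i j
  fin_cases i <;> fin_cases j <;>
    simp [Matrix.mul_apply, Fin.sum_univ_two, Matrix.sub_apply, Matrix.one_apply]
  · linear_combination A 0 0 * ht - hd
  · linear_combination A 0 1 * ht
  · linear_combination A 1 0 * ht
  · linear_combination A 1 1 * ht - hd

variable {k : Type} [Field k] [CharP k 2] {r : Gal →* M2 k} {D : Finset ℕ} {δ : QBar}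
  (h : Dihedral r D δ) {N : ℕ} (hN : 0 < N) {M : ℕ} (hM : M ≠ 0) (ρ : Gal →* M2 (ZMod (2 ^ N)))
  (hker : ∀ g, r g = 1 ↔ red2 hN (ρ g) = 1) (hdet : ∀ g, FixesMu M g → (ρ g).det = 1)

include hker hdet

theorem AuxSet.move (h : Dihedral r D δ) {g : Gal} (hg : g ∈ AuxSet r ρ M) : g δ ≠ δ := by
  intro hgδ
  obtain ⟨ω, hω, hf⟩ := h.form
  obtain ⟨a, ha⟩ := (hf g).1 hgδ
  have hsq : r (g * g) = 1 := (hker _).mpr (by
    rw [map_mul, map_mul]
    have e := congrArg (red2 hN) (sq_sub_one_eq_zero hg.2.1 (hdet g hg.1))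
    rw [map_mul, map_sub, map_one, map_zero] at e
    calc red2 hN (ρ g) * red2 hN (ρ g)
        = (red2 hN (ρ g) - 1) * (red2 hN (ρ g) - 1) + 2 • red2 hN (ρ g) - 1 := by
          simp only [mul_sub, sub_mul, mul_one, one_mul, two_nsmul]; abel
      _ = 1 := by
          rw [e, zero_add, CharTwo.two_nsmul, zero_sub]
          exact CharTwo.neg_eq 1)
  rw [map_mul, ha, Matrix.mul_fin_two] at hsq
  have e1 := congrFun (congrFun hsq 0) 0
  simp [← pow_add] at e1
  refine hg.2.2 ?_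
  have h3 := omega_cube hω
  have ea : ω ^ a = 1 := by
    calc ω ^ a = ω ^ a * (ω ^ 3) ^ a := by rw [h3, one_pow, mul_one]
      _ = (ω ^ (a + a)) ^ 2 := by rw [← pow_mul, ← pow_mul, ← pow_add]; congr 1; ring
      _ = 1 := by rw [e1, one_pow]
  rw [ha, mul_comm 2 a, pow_mul, ea, one_pow, Matrix.one_fin_two]

theorem AuxSet.conj {g : Gal} (hg : g ∈ AuxSet r ρ M) (s : Gal) :
    s * g * s⁻¹ ∈ AuxSet r ρ M := by
  refine ⟨hg.1.conj s, ?_, fun e => hg.2.2 ?_⟩
  · rw [map_mul, map_mul, Matrix.trace_mul_comm, ← mul_assoc, ← map_mul ρ s⁻¹ s, inv_mul_cancel,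
      map_one, one_mul]
    exact hg.2.1
  · calc r g = r s⁻¹ * r (s * g * s⁻¹) * r s := by simp only [← map_mul]; congr 1; group
      _ = 1 := by rw [e, mul_one, rinv_mul]

include h

omit hker hdet in
/-- An off-diagonal matrix fixed by a nontrivial rotation vanishes. -/
theorem off_eq_zero_of_rot_conj {ω : k} (hω : ω ^ 2 + ω + 1 = 0)
    (hf : ∀ σ : Gal, σ δ = δ → ∃ a : ℕ, r σ = !![ω ^ a, 0; 0, ω ^ (2 * a)])
    {s : Gal} (hsδ : s δ = δ) (hrs : r s = !![ω ^ 1, 0; 0, ω ^ (2 * 1)]) {Z : M2 k}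
    (hZ : dM Z = 0) (e : r s * Z * r s⁻¹ = Z) : Z = 0 := by
  have h3 := omega_cube hω
  have hω1 := omega_ne_one hω
  have hform : Z = !![0, Z 0 1; Z 1 0, 0] := by
    conv_lhs => rw [← dM_add_oM Z, hZ, zero_add, oM_apply]
  obtain ⟨b, hb⟩ := hf s⁻¹ ((h.inv_fix_iff s).mpr hsδ)
  have eb := rmul_inv r s
  rw [hrs, hb, Matrix.mul_fin_two] at eb
  have e00 := congrFun (congrFun eb 0) 0
  have e11 := congrFun (congrFun eb 1) 1
  simp at e00 e11
  rw [hrs, hb, hform, Matrix.mul_fin_two, Matrix.mul_fin_two] at e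
  have hp := congrFun (congrFun e 0) 1
  have hq := congrFun (congrFun e 1) 0
  simp at hp hq
  have hb2 : ω ^ (2 * b) = ω := by
    calc ω ^ (2 * b) = ω ^ (2 * b) * ω ^ 3 := by rw [h3, mul_one]
      _ = ω * (ω ^ 2 * ω ^ (2 * b)) := by ring
      _ = ω := by rw [e11, mul_one]
  have hb1 : ω ^ b = ω ^ 2 := by
    calc ω ^ b = ω ^ b * ω ^ 3 := by rw [h3, mul_one]
      _ = ω ^ 2 * (ω * ω ^ b) := by ring
      _ = ω ^ 2 := by rw [e00, mul_one]
  rw [hb2] at hp
  rw [hb1] at hq
  have hp0 : Z 0 1 = 0 := by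
    refine (mul_eq_zero.mp (?_ : (ω ^ 2 - 1) * Z 0 1 = 0)).resolve_left
      fun e => hω1 (by linear_combination h3 - ω * e)
    linear_combination hp
  have hq0 : Z 1 0 = 0 := by
    refine (mul_eq_zero.mp (?_ : (ω ^ 4 - 1) * Z 1 0 = 0)).resolve_left
      fun e => hω1 (by linear_combination e - ω * h3)
    linear_combination hq
  rw [hform, hp0, hq0]
  ext i j; fin_cases i <;> fin_cases j <;> rfl

/-- All three reflections are values on the auxiliary set. -/
theorem AuxSet.exists_reflection {ω : k} (hω : ω ^ 2 + ω + 1 = 0)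
    (hf : ∀ σ : Gal, (σ δ = δ → ∃ a : ℕ, r σ = !![ω ^ a, 0; 0, ω ^ (2 * a)]) ∧
      (σ δ ≠ δ → ∃ a : ℕ, r σ = !![0, ω ^ a; ω ^ (2 * a), 0]))
    {u : Gal} (hu : u ∈ AuxSet r ρ M) (c : ℕ) :
    ∃ g ∈ AuxSet r ρ M, r g = !![0, ω ^ c; ω ^ (2 * c), 0] := by
  obtain ⟨a, ha⟩ := (hf u).2 (AuxSet.move hN ρ hker hdet h hu)
  obtain ⟨s, hs, hrs⟩ := h.exists_eq_rot hω (fun σ => (hf σ).1) (a + 2 * c)
  obtain ⟨b, hb⟩ := (hf s⁻¹).1 ((h.inv_fix_iff s).mpr hs)
  have e := rmul_inv r s
  rw [hrs, hb, Matrix.mul_fin_two] at e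
  have e00 := congrFun (congrFun e 0) 0
  simp [← pow_add] at e00
  refine ⟨s * u * s⁻¹, AuxSet.conj hN ρ hker hdet hu s, ?_⟩
  rw [map_mul, map_mul, hrs, ha, hb, Matrix.mul_fin_two, Matrix.mul_fin_two]
  have h3 := omega_cube hω
  have hb1 : ω ^ b = ω ^ (2 * (a + 2 * c)) := by
    calc ω ^ b = ω ^ b * (ω ^ 3) ^ (a + 2 * c) := by rw [h3, one_pow, mul_one]
      _ = ω ^ (2 * (a + 2 * c)) * ω ^ (a + 2 * c + b) := by
          rw [← pow_mul, ← pow_add, ← pow_add]; congr 1; ring
      _ = _ := by rw [e00, mul_one]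
  have hb2 : ω ^ (2 * b) = ω ^ (4 * (a + 2 * c)) := by
    rw [mul_comm 2 b, pow_mul, hb1, ← pow_mul]; congr 1; ring
  ext i j
  fin_cases i <;> fin_cases j <;> simp [hb1, hb2, ← pow_add]
  · rw [pow_eq_pow_mod _ h3, pow_eq_pow_mod c h3]; congr 1; omega
  · rw [pow_eq_pow_mod _ h3, pow_eq_pow_mod (2 * c) h3]; congr 1; omega

theorem eq_cobd_of_evTr_eq_zero (hM : M ≠ 0)
    (hu : ∃ u, u ∈ AuxSet r ρ M) {x : Gal → M2 k} (hx : IsAdCocycle r x)
    (hoff : ∀ σ, dM (x σ) = 0) (hev : ∀ g ∈ AuxSet r ρ M, evTr r x g = 0) :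
    ∃ X : M2 k, x = cobdLin r X := by
  obtain ⟨ω, hω, hf⟩ := h.form
  obtain ⟨u, hu⟩ := hu
  have h2 : (2 : k) = 0 := CharTwo.two_eq_zero
  have h3 := omega_cube hω
  have hω1 := omega_ne_one hω
  have hω0 : ω ≠ 0 := h.omega_ne_zero hω
  have hform : ∀ σ, x σ = !![0, x σ 0 1; x σ 1 0, 0] := fun σ => by
    conv_lhs => rw [← dM_add_oM (x σ), hoff σ, zero_add, oM_apply]
  choose g hgC hg using AuxSet.exists_reflection h hN ρ hker hdet hω hf hu
  -- the kernel of `ρ` inside the elements fixing `μ_M`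
  have hA : ∀ t, ρ t = 1 → FixesMu M t → x t = 0 := by
    intro t hρt hμt
    have hrt : r t = 1 := (hker t).mpr (by rw [hρt, map_one])
    have key : ∀ c, ω ^ c * x t 1 0 + ω ^ (2 * c) * x t 0 1 = 0 := fun c => by
      have hmem : g c * t ∈ AuxSet r ρ M := by
        refine ⟨(hgC c).1.mul hμt, ?_, ?_⟩
        · rw [map_mul, hρt, mul_one]; exact (hgC c).2.1
        · rw [map_mul, hrt, mul_one]; exact (hgC c).2.2
      have e1 := hev _ hmem
      have e2 := hev _ (hgC c)
      rw [evTr, hx, map_mul, hrt, mul_one, add_mul, Matrix.trace_add,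
        show (x (g c) * r (g c)).trace = evTr r x (g c) from rfl, e2, add_zero, mul_assoc,
        rinv_mul, mul_one, hg c, hform t, Matrix.mul_fin_two, Matrix.trace_fin_two_of] at e1
      linear_combination e1
    have k0 := key 0
    have k1 := key 1
    simp only [pow_zero, mul_zero, one_mul, pow_one, mul_one] at k0 k1
    have hp : x t 0 1 = 0 := by
      have : (ω ^ 2 - ω) * x t 0 1 = 0 := by linear_combination k1 - ω * k0
      refine (mul_eq_zero.mp this).resolve_left fun e => hω1 ?_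
      exact mul_left_cancel₀ hω0 (by linear_combination e)
    have hq : x t 1 0 = 0 := by linear_combination k0 - hp
    rw [hform t, hp, hq]
    ext i j; fin_cases i <;> fin_cases j <;> rfl
  -- squares of the auxiliary elements
  have hsq : ∀ c, x (g c * g c) = 0 := fun c => by
    have e := hev _ (hgC c)
    rw [evTr, hg c, hform (g c), Matrix.mul_fin_two, Matrix.trace_fin_two_of] at e
    have h31 : ω ^ c * ω ^ (2 * c) = 1 := by
      rw [← pow_add, show c + 2 * c = 3 * c by ring, pow_mul, h3, one_pow]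
    rw [hx, h.inv_of_move (AuxSet.move hN ρ hker hdet h (hgC c)), hg c, hform (g c),
      Matrix.mul_fin_two, Matrix.mul_fin_two]
    ext i j
    fin_cases i <;> fin_cases j <;> simp
    · linear_combination ω ^ c * e - x (g c) 0 1 * h31
    · linear_combination ω ^ (2 * c) * e - x (g c) 1 0 * h31
  -- the elements fixing `μ_M` trivial under `r`
  have hB : ∀ t, r t = 1 → FixesMu M t → x t = 0 := by
    intro t hrt hμt
    set Nm : Fin 3 → M2 (ZMod (2 ^ N)) := fun i => ρ (g i) - 1 with hNm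
    have hNsq : ∀ i, Nm i * Nm i = 0 := fun i =>
      sq_sub_one_eq_zero (hgC i).2.1 (hdet _ (hgC i).1)
    have hgg : ∀ i : Fin 3, 1 + 2 * Nm i = ρ (g i * g i) := fun i => by
      have e : (ρ (g i) - 1) * (ρ (g i) - 1) = 0 := hNsq i
      show 1 + 2 * (ρ (g i) - 1) = ρ (g i * g i)
      rw [map_mul]
      calc 1 + 2 * (ρ (g i) - 1)
          = ρ (g i) * ρ (g i) - (ρ (g i) - 1) * (ρ (g i) - 1) := by noncomm_ring
        _ = ρ (g i) * ρ (g i) := by rw [e, sub_zero]
    have hT : ∀ i : Fin 3, red2 hN (ρ (g i)) * red2 hN (ρ (g i)) = 1 ∧ red2 hN (ρ (g i)) ≠ 1 := by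
      refine fun i => ⟨?_, fun e => (hgC i).2.2 ((hker _).mpr e)⟩
      rw [← map_mul, ← map_mul]
      refine (hker _).mp ?_
      rw [map_mul]
      exact h.sq_of_move (AuxSet.move hN ρ hker hdet h (hgC i))
    have hinj : Function.Injective fun i : Fin 3 => red2 hN (ρ (g i)) := by
      intro i j e
      have e1 : r ((g i)⁻¹ * g j) = 1 := (hker _).mpr (by
        simp only [map_mul]
        rw [show red2 hN (ρ (g j)) = red2 hN (ρ (g i)) from e.symm, ← map_mul, ← map_mul,
          inv_mul_cancel, map_one, map_one])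
      have e2 : r (g i) = r (g j) := by
        conv_rhs => rw [← mul_inv_cancel_left (g i) (g j), map_mul, e1, mul_one]
      rw [hg, hg] at e2
      have e3 : ω ^ (i : ℕ) = ω ^ (j : ℕ) := by simpa using congrFun (congrFun e2 0) 1
      have hsq1 : ω ^ 2 ≠ 1 := fun e => hω1 (by
        have : ω ^ 3 = ω := by rw [pow_succ, e, one_mul]
        rw [h3] at this; exact this.symm)
      have h21 : ω ^ 2 ≠ ω := fun e => hω1 (mul_left_cancel₀ hω0 (by linear_combination e))
      fin_cases i <;> fin_cases j <;> first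
        | rfl
        | (simp only [pow_zero, pow_one] at e3
           first
            | exact (hω1 e3).elim | exact (hω1 e3.symm).elim | exact (hsq1 e3).elim
            | exact (hsq1 e3.symm).elim | exact (h21 e3).elim | exact (h21 e3.symm).elim)
    have hspan : ∀ B : M2 (ZMod 2), B.trace = 0 → ∃ c : Fin 3 → ℕ,
        B = c 0 • red2 hN (Nm 0) + c 1 • red2 hN (Nm 1) + c 2 • red2 hN (Nm 2) := fun B hB => by
      simp only [hNm, map_sub, map_one]
      exact exists_combination _ hT hinj B hB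
    have hmem := mem_closure_of_det_one hN Nm hNsq
      (fun i => by rw [hgg]; exact hdet _ ((hgC _).1.mul (hgC _).1)) hspan (hdet t hμt)
      ((hker t).mp hrt)
    let Wm : Submonoid Gal :=
      { carrier := {w | x w = 0 ∧ r w = 1 ∧ FixesMu M w}
        one_mem' := ⟨hx.one, map_one r, FixesMu.one M⟩
        mul_mem' := fun {a b} ha hb => ⟨by rw [hx, hb.1, ha.1]; simp,
          by rw [map_mul, ha.2.1, hb.2.1, mul_one], ha.2.2.mul hb.2.2⟩ }
    have hle : Submonoid.closure (Set.range fun i => 1 + 2 * Nm i) ≤ Wm.map ρ := by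
      rw [Submonoid.closure_le]
      rintro _ ⟨i, rfl⟩
      exact ⟨g i * g i, ⟨hsq i, by
        rw [map_mul]; exact h.sq_of_move (AuxSet.move hN ρ hker hdet h (hgC i)),
        (hgC i).1.mul (hgC i).1⟩, (hgg i).symm⟩
    obtain ⟨w, ⟨hw, hrw, hμw⟩, hρw⟩ := hle hmem
    have h0 : x (w⁻¹ * t) = 0 := hA _
      (by rw [map_mul, ← hρw, ← map_mul, inv_mul_cancel, map_one]) (hμw.inv.mul hμt)
    rw [← mul_inv_cancel_left w t, hx, h0, hw]
    simp
  -- the kernel of `r`
  have hC : ∀ t, r t = 1 → x t = 0 := by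
    intro t hrt
    obtain ⟨s, hsδ, hrs⟩ := h.exists_eq_rot hω (fun σ => (hf σ).1) 1
    have hrc : r (s * t * s⁻¹) = 1 := by rw [map_mul, map_mul, hrt, mul_one, rmul_inv]
    have hrt' : r t⁻¹ = 1 := by
      have e := rmul_inv r t
      rwa [hrt, one_mul] at e
    have hc0 : x (s * t * s⁻¹ * t⁻¹) = 0 :=
      hB _ (by rw [map_mul, hrc, hrt', mul_one]) (fixesMu_commutator hM s t)
    have e : x (s * t * s⁻¹) = x t := by
      rw [← inv_mul_cancel_right (s * t * s⁻¹) t, hx, hc0, add_zero,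
        show r (s * t * s⁻¹ * t⁻¹) = 1 by rw [map_mul, hrc, hrt', mul_one]]
      have : r (s * t * s⁻¹ * t⁻¹)⁻¹ = 1 := by
        have e' := rmul_inv r (s * t * s⁻¹ * t⁻¹)
        rwa [show r (s * t * s⁻¹ * t⁻¹) = 1 by rw [map_mul, hrc, hrt', mul_one], one_mul] at e'
      rw [this, one_mul, mul_one]
    rw [map_of_map_eq_one hx s hrt] at e
    exact off_eq_zero_of_rot_conj h hω (fun σ => (hf σ).1) hsδ hrs (hoff t) e
  have hxr : ∀ a b, r a = r b → x a = x b := fun a b e => hx.congr (hC _ (by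
    rw [map_mul, e, rinv_mul]))
  -- averaging over the rotations
  obtain ⟨s, hsδ, hrs⟩ := h.exists_eq_rot hω (fun σ => (hf σ).1) 1
  set X := x s + x (s * s) with hX
  have hs3 : r (s * (s * s)) = 1 := by
    rw [map_mul, map_mul, hrs, Matrix.mul_fin_two, Matrix.mul_fin_two, Matrix.one_fin_two]
    simp only [mul_one, pow_one, mul_zero, zero_mul, add_zero, zero_add]
    rw [show ω * (ω * ω) = 1 by linear_combination h3,
      show ω ^ 2 * (ω ^ 2 * ω ^ 2) = 1 by rw [show ω ^ 2 * (ω ^ 2 * ω ^ 2) = (ω ^ 3) ^ 2 by ring, h3, one_pow]]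
  set y := x - cobdLin r X with hy
  have hyc : IsAdCocycle r y := hx.sub fun a b => by
    simp only [cobdLin_apply, map_mul]
    have e : r (a * b)⁻¹ = r b⁻¹ * r a⁻¹ := by rw [← map_mul, _root_.mul_inv_rev]
    rw [e]; simp only [mul_sub, sub_mul, ← mul_assoc]; abel
  have hyr : ∀ a b, r a = r b → y a = y b := fun a b e => by
    have einv : r a⁻¹ = r b⁻¹ := by
      calc r a⁻¹ = r a⁻¹ * (r b * r b⁻¹) := by rw [rmul_inv, mul_one]
        _ = r b⁻¹ := by rw [← mul_assoc, ← e, rinv_mul, one_mul]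
    simp only [hy, Pi.sub_apply, cobdLin_apply, hxr a b e, e, einv]
  have hys : y s = 0 := by
    have e1 := hx s s
    have e2 := hx s (s * s)
    rw [hxr _ 1 (by rw [hs3, map_one]), hx.one] at e2
    simp only [hy, Pi.sub_apply, cobdLin_apply, hX, mul_add, add_mul]
    rw [eq_sub_of_add_eq e1.symm, eq_sub_of_add_eq e2.symm]
    have h2M : ∀ Z : M2 k, Z + Z = 0 := fun Z => CharTwo.add_self_eq_zero Z
    calc x s - (x (s * s) - x s + (0 - x s) - (x s + x (s * s)))
        = (x s + x s) + (x s + x s) := by abel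
      _ = 0 := by simp [h2M]
  have hyfix : ∀ a, a δ = δ → y a = 0 := fun a ha => by
    obtain ⟨e, he⟩ := (hf a).1 ha
    have hpow : ∀ m : ℕ, (!![ω, 0; 0, ω ^ 2] : M2 k) ^ m = !![ω ^ m, 0; 0, ω ^ (2 * m)] := fun m => by
      induction m with
      | zero => simp [Matrix.one_fin_two]
      | succ m ih => rw [pow_succ, ih, Matrix.mul_fin_two]; simp [pow_succ, pow_mul, mul_pow]
    have : r a = r (s ^ e) := by rw [he, map_pow, hrs, pow_one, mul_one, hpow]
    rw [hyr _ _ this]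
    exact hyc.pow_eq_zero hys e
  refine ⟨X, funext fun a => sub_eq_zero.mp (show y a = 0 from ?_)⟩
  by_cases ha : a δ = δ
  · exact hyfix a ha
  · -- a reflection: its value is fixed by the rotation
    have hq : (a⁻¹ * s * a) δ = δ := by
      have h' := (h.delta_or_neg a).resolve_left ha
      rw [AlgEquiv.mul_apply, AlgEquiv.mul_apply, h', map_neg, hsδ, ← h']
      exact a.symm_apply_apply δ
    have e1 := hyc s a
    have e2 := hyc a (a⁻¹ * s * a)
    rw [show a * (a⁻¹ * s * a) = s * a by group, hyfix _ hq] at e2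
    rw [e2, hys] at e1
    simp only [mul_zero, zero_mul, zero_add, add_zero] at e1
    refine off_eq_zero_of_rot_conj h hω (fun σ => (hf σ).1) hsδ hrs ?_ e1.symm
    have hXo : dM X = 0 := by rw [hX, map_add, hoff, hoff, add_zero]
    simp only [hy, Pi.sub_apply, cobdLin_apply, map_sub, hoff, h.dM_conj, hXo]
    simp

end Fermat.Agent.Two.Tangent
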