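import Mathlib
import Fermat.Agent.Two.Tangent.Detect
import Fermat.Agent.Arith.Chebotarev.Main
import Fermat.Agent.Arith.Density.Split
import Fermat.Agent.CFT.TWPrimes.Main

/-!
# Auxiliary primes detecting the Steinberg classes

Chebotarev gives primes `v`, `1` modulo `M`, at which Frobenius is unipotent modulo `2 ^ N` and
nontrivial modulo `2`, whose functionals are a basis of the dual of the classes unramified
outside `2`.
-/

set_option autoImplicit false
set_option linter.unusedSectionVars false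
set_option linter.style.haveILetI false

noncomputable section

namespace Fermat.Agent.Two.Tangent

open Fermat.Agent.Deform Fermat.Agent.Arith Fermat.Agent.Arith.Density
open Fermat.Agent.Arith.Chebotarev
open Fermat.Agent.CFT.Tangent (IsAdCocycle IsFiniteLevel cobdLin cobdLin_apply)
open scoped Classical Pointwise

variable {k : Type} [Field k] [CharP k 2] {r : Gal →* M2 k} {D : Finset ℕ} {δ : QBar}

/-- The classes unramified outside `2`, as a space of functions. -/
def offSub (r : Gal →* M2 k) : Submodule k (Gal → M2 k) where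
  carrier := {x | IsOffClass r ∅ x}
  zero_mem' := {
    cocycle := fun g g' => by simp
    level := ⟨⊥, inferInstance, fun _ _ => rfl⟩
    off := fun _ => by simp
    unram := fun _ _ _ _ _ _ _ _ _ => rfl
    deep := Deep.zero }
  add_mem' := fun {x y} hx hy => {
    cocycle := hx.cocycle.add hy.cocycle
    level := by
      obtain ⟨L, hL, h1⟩ := hx.level
      obtain ⟨L', hL', h2⟩ := hy.level
      haveI := hL; haveI := hL'
      exact ⟨L ⊔ L', inferInstance, fun σ hσ => by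
        rw [Pi.add_apply, h1 σ fun a ha => hσ a ((le_sup_left : L ≤ L ⊔ L') ha),
          h2 σ fun a ha => hσ a ((le_sup_right : L' ≤ L ⊔ L') ha), add_zero]⟩
    off := fun σ => by rw [Pi.add_apply, map_add, hx.off, hy.off, add_zero]
    unram := fun q hq hq2 hqV A hA τ hτ hr => by
      rw [Pi.add_apply, hx.unram q hq hq2 hqV A hA τ hτ hr, hy.unram q hq hq2 hqV A hA τ hτ hr,
        add_zero]
    deep := hx.deep.add hy.deep }
  smul_mem' := fun c x hx => {
    cocycle := hx.cocycle.smul c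
    level := by
      obtain ⟨L, hL, h1⟩ := hx.level
      exact ⟨L, hL, fun σ hσ => by rw [Pi.smul_apply, h1 σ hσ, smul_zero]⟩
    off := fun σ => by rw [Pi.smul_apply, map_smul, hx.off, smul_zero]
    unram := fun q hq hq2 hqV A hA τ hτ hr => by
      rw [Pi.smul_apply, hx.unram q hq hq2 hqV A hA τ hτ hr, smul_zero]
    deep := hx.deep.smul c }

/-- A common normal level for the classes unramified outside `2`. -/
theorem exists_offSub_level (h : Dihedral r D δ) (hfin : HKummerFinite r) :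
    ∃ L : IntermediateField ℚ QBar, FiniteDimensional ℚ L ∧ Normal ℚ L ∧
      ∀ σ : Gal, (∀ x ∈ L, σ x = x) → r σ = 1 ∧ ∀ x ∈ offSub r, x σ = 0 := by
  obtain ⟨L₀, hL₀, h₀⟩ := h.level
  obtain ⟨L₁, hL₁, h₁⟩ := hfin
  haveI := hL₀; haveI := hL₁
  haveI := qBar_isGalois
  letI : Algebra (ZMod 2) k := ZMod.algebra k 2
  refine ⟨IntermediateField.normalClosure ℚ (L₀ ⊔ L₁ : IntermediateField ℚ QBar) QBar,
    inferInstance, normalClosure.normal ℚ _ QBar, fun σ hσ => ?_⟩
  have hle := (L₀ ⊔ L₁ : IntermediateField ℚ QBar).le_normalClosure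
  have hr : r σ = 1 :=
    h₀ σ fun a ha => hσ a (hle ((le_sup_left : L₀ ≤ L₀ ⊔ L₁) ha))
  refine ⟨hr, fun x hx => ?_⟩
  ext i j
  refine (Module.forall_dual_apply_eq_zero_iff (ZMod 2) (x σ i j)).mp fun f => ?_
  refine h₁ (fun τ => f (x τ i j)) ?_ ?_ ?_ σ hr
    (fun a ha => hσ a (hle ((le_sup_right : L₁ ≤ L₀ ⊔ L₁) ha)))
  · obtain ⟨L, hL, h2⟩ := hx.level
    exact ⟨L, hL, fun τ hτ => by show f (x τ i j) = 0; rw [h2 τ hτ]; simp⟩
  · intro a b ha hb
    show f (x (a * b) i j) = f (x a i j) + f (x b i j)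
    have hinv : r a⁻¹ = 1 := by
      have e := rmul_inv r a
      rwa [ha, one_mul] at e
    rw [hx.cocycle a b, ha, hinv, one_mul, mul_one, Matrix.add_apply, map_add, add_comm]
  · intro q hq hq2 A hA τ hτ hrτ
    show f (x τ i j) = 0
    rw [hx.unram q hq hq2 (Finset.notMem_empty q) A hA τ hτ hrτ]
    simp

/-- The space of classes unramified outside `2` is finite dimensional. -/
theorem finite_offSub (h : Dihedral r D δ) (hfin : HKummerFinite r) :
    Module.Finite k (offSub r) := by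
  obtain ⟨L, hL, hnL, hlev⟩ := exists_offSub_level h hfin
  haveI := hL; haveI := hnL
  haveI := qBar_isGalois
  haveI : IsGalois ℚ L := ⟨⟩
  choose lift hlift using AlgEquiv.restrictNormalHom_surjective (F := ℚ) (K₁ := L) QBar
  let ev : offSub r →ₗ[k] (Gal(L/ℚ) → M2 k) :=
    { toFun := fun x w => (x : Gal → M2 k) (lift w)
      map_add' := fun _ _ => rfl
      map_smul' := fun _ _ => rfl }
  refine Module.Finite.of_injective ev fun x y e => Subtype.ext (funext fun σ => ?_)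
  have hmem : (x : Gal → M2 k) - y ∈ offSub r := (offSub r).sub_mem x.2 y.2
  refine sub_eq_zero.mp (show ((x : Gal → M2 k) - (y : Gal → M2 k)) σ = 0 from ?_)
  have key : ((x : Gal → M2 k) - (y : Gal → M2 k)) σ
      = ((x : Gal → M2 k) - (y : Gal → M2 k)) (lift (AlgEquiv.restrictNormalHom L σ)) := by
    refine hmem.cocycle.congr ((hlev _ ?_).2 _ hmem)
    refine (restrictNormalHom_eq_one_iff L).mp ?_
    rw [map_mul, map_inv, hlift, inv_mul_cancel]

  rw [key]
  exact sub_eq_zero.mpr (congrFun e _)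

theorem evTr_eq_of_eq (b : Gal → M2 k) {g g' : Gal} (hb : b g = b g') (hr : r g = r g') :
    evTr r b g = evTr r b g' := by
  rw [evTr, evTr, hb, hr]

variable {N : ℕ} (hN : 0 < N) {M : ℕ} (ρ : Gal →* M2 (ZMod (2 ^ N)))

/-- The Frobenius functional at `g`, on the classes. -/
def evLin (r : Gal →* M2 k) (g : Gal) : offSub r →ₗ[k] k where
  toFun x := evTr r x g
  map_add' x y := by simp [evTr, add_mul, Matrix.trace_add]
  map_smul' c x := by simp [evTr, Matrix.trace_smul]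

/-- Elements of the auxiliary set whose functionals form a basis of the dual of the classes
modulo coboundaries. -/
theorem exists_detecting_elements (h : Dihedral r D δ) (hfin : HKummerFinite r) (hM : M ≠ 0)
    (hker : ∀ g, r g = 1 ↔ red2 hN (ρ g) = 1) (hdet : ∀ g, FixesMu M g → (ρ g).det = 1)
    (hu : ∃ u, u ∈ AuxSet r ρ M) :
    ∃ (m : ℕ) (g : Fin m → Gal), (∀ i, g i ∈ AuxSet r ρ M) ∧
      (∀ i, ∃ x ∈ offSub r, ∀ j, evTr r x (g j) = if j = i then 1 else 0) ∧
      ∀ x ∈ offSub r, (∀ i, evTr r x (g i) = 0) → ∃ X : M2 k, x = cobdLin r X := by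
  haveI := finite_offSub h hfin
  let C := {g : Gal // g ∈ AuxSet r ρ M}
  let v : C → Module.Dual k (offSub r) := fun g => evLin r g.1
  obtain ⟨κ, a, -, hsp, hli⟩ := exists_linearIndependent' k v
  haveI : Finite κ := hli.finite
  obtain ⟨m, ⟨e⟩⟩ := Finite.exists_equiv_fin κ
  refine ⟨m, fun i => (a (e.symm i)).1, fun i => (a (e.symm i)).2, fun i => ?_, fun x hx hz => ?_⟩
  · let Φ : offSub r →ₗ[k] (Fin m → k) := LinearMap.pi fun j => v (a (e.symm j))
    have hsurj : Function.Surjective Φ := by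
      rw [← LinearMap.range_eq_top]
      by_contra hne
      obtain ⟨f, hf0, hf⟩ := Submodule.exists_le_ker_of_lt_top _ (lt_top_iff_ne_top.mpr hne)
      have hcomb : ∑ j, f (Pi.single j 1) • v (a (e.symm j)) = 0 := by
        refine LinearMap.ext fun x => ?_
        have e1 : f (Φ x) = 0 := hf ⟨x, rfl⟩
        rw [pi_eq_sum_univ' (Φ x), map_sum] at e1
        simp only [map_smul, smul_eq_mul] at e1
        simp only [LinearMap.sum_apply, LinearMap.smul_apply, smul_eq_mul, LinearMap.zero_apply]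
        rw [← e1]
        exact Finset.sum_congr rfl fun j _ => by simp [Φ, mul_comm]
      have hz := Fintype.linearIndependent_iff.mp (hli.comp e.symm e.symm.injective) _ hcomb
      refine hf0 (LinearMap.ext fun w => ?_)
      rw [pi_eq_sum_univ' w, map_sum, LinearMap.zero_apply]
      exact Finset.sum_eq_zero fun j _ => by rw [map_smul, hz j, smul_zero]
    obtain ⟨x, hx⟩ := hsurj (fun j => if j = i then 1 else 0)
    exact ⟨x, x.2, fun j => congrFun hx j⟩
  · refine eq_cobd_of_evTr_eq_zero h hN ρ hker hdet hM hu hx.cocycle hx.off fun g hg => ?_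
    have hle : Submodule.span k (Set.range v) ≤
        LinearMap.ker (Module.Dual.eval k (offSub r) ⟨x, hx⟩) := by
      rw [← hsp, Submodule.span_le]
      rintro _ ⟨i, rfl⟩
      have := hz (e i)
      simp only [Equiv.symm_apply_apply] at this
      exact this
    exact hle (Submodule.subset_span ⟨⟨g, hg⟩, rfl⟩)

/-- **Auxiliary primes detecting the classes.** -/
theorem exists_detecting (h : Dihedral r D δ) (hfin : HKummerFinite r) {N : ℕ} (hN : 0 < N)
    {M : ℕ} (hM : M ≠ 0) (hM4 : 4 ∣ M) (ρ : Gal →* M2 (ZMod (2 ^ N)))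
    (hρ : ∃ L : IntermediateField ℚ QBar, FiniteDimensional ℚ L ∧
      ∀ σ : Gal, (∀ x ∈ L, σ x = x) → ρ σ = 1)
    (hker : ∀ g, r g = 1 ↔ red2 hN (ρ g) = 1) (hdet : ∀ g, FixesMu M g → (ρ g).det = 1)
    (hu : ∃ u, u ∈ AuxSet r ρ M) (S : Finset ℕ) :
    ∃ (V : Finset ℕ) (φ : ℕ → Gal), IsDetecting r D δ V φ ∧
      ∀ v ∈ V, v ∉ S ∧ v % M = 1 ∧ FixesMu M (φ v) ∧ (ρ (φ v)).trace = 2 ∧ (ρ (φ v)).det = 1 ∧
        r (φ v) ≠ 1 ∧ ∀ [Fact v.Prime], ∀ τ ∈ (padicPlace v).inertiaSubgroupIn ℚ, ρ τ = 1 := by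
  obtain ⟨m, g, hg, hdual, hdetect⟩ := exists_detecting_elements hN ρ h hfin hM hker hdet hu
  obtain ⟨L₁, hL₁, hnL₁, hlev⟩ := exists_offSub_level h hfin
  obtain ⟨L₂, hL₂, hρ₂⟩ := hρ
  haveI : NeZero M := ⟨hM⟩
  obtain ⟨ζ, hζ⟩ := HasEnoughRootsOfUnity.exists_primitiveRoot QBar M
  haveI := hL₁; haveI := hL₂
  haveI : FiniteDimensional ℚ (IntermediateField.adjoin ℚ {ζ}) :=
    IntermediateField.adjoin.finiteDimensional (Algebra.IsIntegral.isIntegral ζ)
  haveI := qBar_isGalois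
  let Lb : IntermediateField ℚ QBar := L₁ ⊔ L₂ ⊔ IntermediateField.adjoin ℚ {ζ}
  let L : IntermediateField ℚ QBar := IntermediateField.normalClosure ℚ Lb QBar
  haveI : Normal ℚ L := normalClosure.normal ℚ Lb QBar
  haveI : IsGalois ℚ L := ⟨⟩
  haveI : FiniteDimensional ℚ L := normalClosure.is_finiteDimensional ℚ Lb QBar
  have hle : Lb ≤ L := Lb.le_normalClosure
  have hfix : ∀ τ : Gal, AlgEquiv.restrictNormalHom L τ = 1 →
      r τ = 1 ∧ ρ τ = 1 ∧ (∀ x ∈ offSub r, x τ = 0) ∧ hζ.autToPow ℚ τ = 1 := fun τ hτ => by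
    rw [restrictNormalHom_eq_one_iff] at hτ
    obtain ⟨h1, h3⟩ := hlev τ fun x hx =>
      hτ x (hle ((le_sup_left : L₁ ⊔ L₂ ≤ Lb) ((le_sup_left : L₁ ≤ L₁ ⊔ L₂) hx)))
    refine ⟨h1, hρ₂ τ fun x hx =>
      hτ x (hle ((le_sup_left : L₁ ⊔ L₂ ≤ Lb) ((le_sup_right : L₂ ≤ L₁ ⊔ L₂) hx))), h3,
      Units.ext ?_⟩
    exact (autToPow_eq hζ (b := 1) (by
      rw [pow_one]
      exact hτ ζ (hle ((le_sup_right : IntermediateField.adjoin ℚ {ζ} ≤ Lb)
        (IntermediateField.mem_adjoin_simple_self ℚ ζ))))).trans Nat.cast_one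
  obtain ⟨B, hB⟩ := exists_bound_good L
  have hcand : ∀ (i : Fin m) (T : Finset ℕ), ∃ q, q ∉ T ∧ (q.Prime ∧ B < q ∧ q ∉ S ∧ q ∉ D ∧
      q ≠ 2 ∧ ¬ q ∣ M ∧ ∃ A : ValuationSubring QBar, A.LiesOverPrime q ∧
      ∃ σ : Gal, A.IsFrobeniusAt σ q ∧
        AlgEquiv.restrictNormalHom L σ = AlgEquiv.restrictNormalHom L (g i)) := fun i T => by
    obtain ⟨q, hq, hqT, A, hA, σ, hσ, he⟩ := exists_frobenius_restrict_eq L (g i)
      (T ∪ S ∪ D ∪ Finset.range (B + 1) ∪ {2} ∪ M.primeFactors)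
    simp only [Finset.mem_union, Finset.mem_range, Finset.mem_singleton, not_or] at hqT
    obtain ⟨⟨⟨⟨⟨h1, h2⟩, h3⟩, h4⟩, h5⟩, h6⟩ := hqT
    exact ⟨q, h1, hq, by omega, h2, h3, h5,
      fun hd => h6 (Nat.mem_primeFactors.mpr ⟨hq, hd, hM⟩), A, hA, σ, hσ, he⟩
  obtain ⟨q, hq, hinj⟩ := CFT.TWPrimes.exists_injOn_choice hcand Finset.univ ∅
  replace hq := fun i => (hq i (Finset.mem_univ i)).1
  have hinj' : Function.Injective q := fun i j e =>
    hinj (Finset.mem_univ i) (Finset.mem_univ j) e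
  -- Frobenius elements at the chosen places
  have hplace : ∀ i, ∃ s : Gal, ∀ [Fact (q i).Prime], ∃ σ : Gal,
      (padicPlace (q i)).IsFrobeniusAt σ (q i) ∧
        AlgEquiv.restrictNormalHom L σ = AlgEquiv.restrictNormalHom L (s * g i * s⁻¹) := fun i => by
    obtain ⟨hqp, -, -, -, -, -, A, hA, σ, hσ, he⟩ := hq i
    haveI : Fact (q i).Prime := ⟨hqp⟩
    obtain ⟨s, hs⟩ := exists_smul_eq hA (CFT.Local.padicPlace_liesOverPrime (q i)) hqp
    refine ⟨s, fun {_} => ⟨s * σ * s⁻¹, hs ▸ isFrobeniusAt_conj hσ, ?_⟩⟩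
    simp only [map_mul, he]
  choose s hs using hplace
  choose σ hσF hσr using fun i => @hs i ⟨(hq i).1⟩
  -- values of the functionals
  have hdiff : ∀ (a b : Gal), AlgEquiv.restrictNormalHom L a = AlgEquiv.restrictNormalHom L b →
      r a = r b ∧ ρ a = ρ b ∧ hζ.autToPow ℚ a = hζ.autToPow ℚ b ∧ ∀ x ∈ offSub r, x a = x b :=
    fun a b e => by
    obtain ⟨h1, h2, h3, h4⟩ := hfix (b⁻¹ * a) (by rw [map_mul, map_inv, e, inv_mul_cancel])
    refine ⟨?_, ?_, ?_, fun x hx => hx.cocycle.congr (h3 x hx)⟩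
    · rw [← mul_inv_cancel_left b a, map_mul, h1, mul_one]
    · rw [← mul_inv_cancel_left b a, map_mul, h2, mul_one]
    · rw [← mul_inv_cancel_left b a, map_mul, h4, mul_one]
  have hev : ∀ i, ∀ x ∈ offSub r, evTr r x (σ i) = evTr r x (g i) := fun i x hx => by
    obtain ⟨h1, -, -, h4⟩ := hdiff _ _ (hσr i)
    rw [evTr_eq_of_eq x (h4 x hx) h1, evTr_conj hx.cocycle]
  have hmem : ∀ i, r (σ i) = r (s i * g i * (s i)⁻¹) ∧ ρ (σ i) = ρ (s i * g i * (s i)⁻¹) ∧
      hζ.autToPow ℚ (σ i) = 1 := fun i => by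
    obtain ⟨h1, h2, h3, -⟩ := hdiff _ _ (hσr i)
    refine ⟨h1, h2, h3.trans ?_⟩
    rw [map_mul, map_mul, map_inv, mul_right_comm, mul_inv_cancel, one_mul]
    exact Units.ext ((autToPow_eq hζ (b := 1)
      (by rw [pow_one]; exact (hg i).1 ζ hζ.pow_eq_one)).trans Nat.cast_one)
  have hCσ : ∀ i, σ i ∈ AuxSet r ρ M := fun i => by
    obtain ⟨h1, h2, h3⟩ := hmem i
    have hc := AuxSet.conj hN ρ hker hdet (hg i) (s i)
    exact ⟨fixesMu_of_autToPow hζ h3, h2 ▸ hc.2.1, h1 ▸ hc.2.2⟩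
  have hqM : ∀ i, q i % M = 1 := fun i => by
    obtain ⟨hqp, -, -, -, -, hqd, -⟩ := hq i
    haveI : Fact (q i).Prime := ⟨hqp⟩
    have e := autToPow_frobenius hζ (CFT.Local.padicPlace_liesOverPrime (q i)) hqp (hσF i) hqd
    rw [(hmem i).2.2, Units.val_one] at e
    have e' := congrArg ZMod.val e
    haveI : Fact (1 < M) := ⟨by have := Nat.le_of_dvd (Nat.pos_of_ne_zero hM) hM4; omega⟩
    rw [ZMod.val_one, ZMod.val_natCast] at e'
    exact e'.symm
  let φ : ℕ → Gal := fun v => if hv : ∃ i, q i = v then σ hv.choose else 1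
  have hφ : ∀ i, φ (q i) = σ i := fun i => by
    have hv : ∃ i', q i' = q i := ⟨i, rfl⟩
    simp only [φ, dif_pos hv]
    exact congrArg σ (hinj' hv.choose_spec)
  refine ⟨Finset.univ.image q, φ, ⟨?_, ?_, ?_, ?_⟩, ?_⟩
  · simp only [Finset.mem_image, Finset.mem_univ, true_and, forall_exists_index]
    rintro _ i rfl
    obtain ⟨hqp, -, -, hqD, -⟩ := hq i
    refine ⟨hqp, ?_, hqD⟩
    have := hqM i
    obtain ⟨c, rfl⟩ := hM4
    rw [← Nat.mod_mod_of_dvd _ (dvd_mul_right 4 c), this]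
  · simp only [Finset.mem_image, Finset.mem_univ, true_and, forall_exists_index]
    rintro _ i rfl _
    rw [hφ]
    exact ⟨hσF i, AuxSet.move hN ρ hker hdet h (hCσ i)⟩
  · simp only [Finset.mem_image, Finset.mem_univ, true_and, forall_exists_index]
    rintro _ i rfl
    obtain ⟨x, hx, hxe⟩ := hdual i
    refine ⟨x, hx, ?_⟩
    rintro _ j rfl
    rw [hφ, hev j x hx, hxe j]
    simp only [hinj'.eq_iff]
  · intro x hx hz
    refine hdetect x hx fun i => ?_
    rw [← hev i x hx, ← hφ]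
    exact hz _ (Finset.mem_image_of_mem _ (Finset.mem_univ i))
  · simp only [Finset.mem_image, Finset.mem_univ, true_and, forall_exists_index]
    rintro _ i rfl
    obtain ⟨hqp, hqB, hqS, -⟩ := hq i
    rw [hφ]
    refine ⟨hqS, hqM i, (hCσ i).1, (hCσ i).2.1, hdet _ (hCσ i).1, (hCσ i).2.2, ?_⟩
    intro _ τ hτ
    exact (hfix τ (inertia_fixes_of_good L hqp (hB _ hqp hqB)
      (CFT.Local.padicPlace_liesOverPrime (q i)) hτ)).2.1

end Fermat.Agent.Two.Tangent
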