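import Mathlib
import Fermat.Agent.Two.Inputs
import Fermat.Agent.Two.Tangent.SelectV
import Fermat.Agent.EC.Rep.Local.Unipotent
import Fermat.Agent.EC.Rep.Tate.DetCyclotomic
import Fermat.Agent.RT.Lift.Levels.CurvePoint

/-!
# Auxiliary primes of a curve

The detecting primes for the residual representation at `2` of a curve, as auxiliary primes in
the sense of the inputs, of a number independent of the modulus.
-/

set_option autoImplicit false
set_option linter.style.haveILetI false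

noncomputable section

namespace Fermat.Agent.Two.Tangent

open WeierstrassCurve Module
open Fermat.Agent.Deform Fermat.Agent.Arith Fermat.Agent.EC.Rep
open Fermat.Agent.CFT.Tangent (IsAdCocycle IsFiniteLevel cobdLin cobdLin_apply)

variable {k : Type} [Field k] [CharP k 2] {r : Gal →* M2 k} {D : Finset ℕ} {δ : QBar}

/-- The number of detecting primes does not depend on the choice. -/
theorem IsDetecting.card_eq (h : Dihedral r D δ) (hfin : HKummerFinite r) {V : Finset ℕ}
    {φ : ℕ → Gal} (hV : IsDetecting r D δ V φ) :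
    V.card = finrank k (offSub r) -
      finrank k ((LinearMap.range (cobdLin r)).comap (offSub r).subtype) := by
  classical
  haveI := finite_offSub h hfin
  let Φ : offSub r →ₗ[k] (V → k) := LinearMap.pi fun v => evLin r (φ v)
  have hsurj : Function.Surjective Φ := fun w => by
    choose x hx hxe using hV.dual
    refine ⟨∑ v : V, w v • (⟨x v v.2, hx v v.2⟩ : offSub r), funext fun u => ?_⟩
    rw [map_sum, Finset.sum_apply, Finset.sum_eq_single u]
    · rw [map_smul, Pi.smul_apply]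
      show w u • evTr r (x u u.2) (φ u) = w u
      rw [hxe u u.2 u u.2, if_pos rfl, smul_eq_mul, mul_one]
    · intro v _ hv
      rw [map_smul, Pi.smul_apply]
      show w v • evTr r (x v v.2) (φ u) = 0
      rw [hxe v v.2 u u.2, if_neg (fun e => hv (Subtype.ext e.symm)), smul_zero]
    · exact fun hu => absurd (Finset.mem_univ u) hu
  have hker : LinearMap.ker Φ = (LinearMap.range (cobdLin r)).comap (offSub r).subtype := by
    ext x
    rw [LinearMap.mem_ker, Submodule.mem_comap, LinearMap.mem_range]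
    constructor
    · intro hx
      obtain ⟨X, hX⟩ := hV.detect x x.2 fun v hv => congrFun hx ⟨v, hv⟩
      exact ⟨X, hX.symm⟩
    · rintro ⟨X, hX⟩
      refine funext fun v => ?_
      show evTr r (x : Gal → M2 k) (φ v) = 0
      rw [show (x : Gal → M2 k) = cobdLin r X from hX.symm, evTr_cobdLin]
  have e := LinearMap.finrank_range_add_finrank_ker Φ
  rw [LinearMap.range_eq_top.mpr hsurj, finrank_top, Module.finrank_pi, Fintype.card_coe, hker] at e
  omega

variable {W : WeierstrassCurve ℤ}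

theorem mem_span_pow_smul_top {V : Type} [AddCommGroup V] [Module ℤ_[2] V]
    (b : Basis (Fin 2) ℤ_[2] V) {I : Ideal ℤ_[2]} {y : V} (h : ∀ i, b.repr y i ∈ I) :
    y ∈ I • (⊤ : Submodule ℤ_[2] V) := by
  rw [← b.sum_repr y]
  exact Submodule.sum_mem _ fun i _ => Submodule.smul_mem_smul (h i) Submodule.mem_top

theorem repr_mem_of_mem_smul_top {V : Type} [AddCommGroup V] [Module ℤ_[2] V]
    (b : Basis (Fin 2) ℤ_[2] V) {I : Ideal ℤ_[2]} {y : V} (h : y ∈ I • (⊤ : Submodule ℤ_[2] V))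
    (i : Fin 2) : b.repr y i ∈ I := by
  refine Submodule.smul_induction_on (p := fun z => b.repr z i ∈ I) h ?_ ?_
  · intro c hc z _
    rw [map_smul, Finsupp.smul_apply, smul_eq_mul]
    exact I.mul_mem_right _ hc
  · intro z z' hz hz'
    rw [map_add, Finsupp.add_apply]
    exact I.add_mem hz hz'

/-- Reduction modulo `2` of a reduction modulo `2 ^ N`. -/
theorem castHom_toZModPow [Fact (Nat.Prime 2)] {N : ℕ} (hN : 0 < N) (x : ℤ_[2]) :
    ZMod.castHom (dvd_pow_self 2 hN.ne') (ZMod 2) (PadicInt.toZModPow N x) =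
      PadicInt.toZMod x := by
  obtain ⟨a, ha⟩ := TateBasis.exists_int_sub_mem 1 x
  obtain ⟨c, hc⟩ := Ideal.mem_span_singleton'.mp ha
  obtain rfl : x = a + c * 2 := by push_cast at hc; linear_combination -hc
  simp only [map_add, map_mul, map_intCast, map_ofNat,
    show (2 : ZMod 2) = 0 from rfl, mul_zero]

/-- An endomorphism unipotent modulo `2 ^ N` in matrices is so on the module. -/
theorem sub_one_sub_one_mem [Fact (Nat.Prime 2)] {V : Type} [AddCommGroup V] [Module ℤ_[2] V]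
    (b : Basis (Fin 2) ℤ_[2] V) (f : Module.End ℤ_[2] V) {N : ℕ}
    (h : ((PadicInt.toZModPow (p := 2) N).mapMatrix
      ((LinearMap.toMatrixAlgEquiv b f - 1) * (LinearMap.toMatrixAlgEquiv b f - 1))) = 0)
    (x : V) : (f - 1) ((f - 1) x) ∈ (Ideal.span {(2 : ℤ_[2]) ^ N}) • (⊤ : Submodule ℤ_[2] V) := by
  refine mem_span_pow_smul_top b fun i => ?_
  rw [show (2 : ℤ_[2]) = ((2 : ℕ) : ℤ_[2]) from rfl, ← PadicInt.ker_toZModPow, RingHom.mem_ker]
  set M := (LinearMap.toMatrixAlgEquiv b f - 1) * (LinearMap.toMatrixAlgEquiv b f - 1) with hM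
  have hMe : M = LinearMap.toMatrixAlgEquiv b ((f - 1) * (f - 1)) := by
    rw [hM, map_mul, map_sub, map_one]
  have e : b.repr ((f - 1) ((f - 1) x)) i = ∑ j, M i j * b.repr x j := by
    rw [hMe]
    exact (congrFun (LinearMap.toMatrix_mulVec_repr b b ((f - 1) * (f - 1)) x) i).symm
  rw [e, map_sum]
  refine Finset.sum_eq_zero fun j _ => ?_
  rw [map_mul, show PadicInt.toZModPow N (M i j) = 0 from congrFun (congrFun h i) j, zero_mul]

/-- **Auxiliary primes of the curve.** -/
theorem exists_auxPrimes (hΔ : W.Δ ≠ 0) (hss : W.IsSemistableModel) (h : Dihedral r D δ)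
    (hfin : HKummerFinite r)
    (hcomp : haveI : Fact (Nat.Prime 2) := ⟨Nat.prime_two⟩
      ∀ σ, r σ = 1 ↔ (residualRep W 2 hΔ).ρ σ = 1)
    (hmove : ∃ q : ℕ, q.Prime ∧ q ≠ 2 ∧ ¬ q ∣ 12 ∧ ∃ A : ValuationSubring QBar,
      A.LiesOverPrime q ∧ ∃ τ ∈ A.inertiaSubgroupIn ℚ, τ δ ≠ δ) :
    ∃ m : ℕ, ∀ (N : ℕ) (S : Finset ℕ), 0 < N → ∃ (V : Finset ℕ) (φ : ℕ → Gal),
      V.card = m ∧ Disjoint V S ∧ IsDetecting r D δ V φ ∧
        ∀ v ∈ V, AuxPrime W hΔ v N ∧ v % 12 = 1 := by
  haveI : Fact (Nat.Prime 2) := ⟨Nat.prime_two⟩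
  obtain ⟨q, hq, hq2, hq12, A, hA, τ, hτ, hτδ⟩ := hmove
  refine ⟨finrank k (offSub r) -
    finrank k ((LinearMap.range (cobdLin r)).comap (offSub r).subtype), fun N S hN => ?_⟩
  set b₀ := RT.Lift.tateStdBasis (p := 2) hΔ
  set T := matOf (tateRep W 2 hΔ) b₀
  set ρ : Gal →* M2 (ZMod (2 ^ N)) :=
    ((PadicInt.toZModPow (p := 2) N).mapMatrix : M2 ℤ_[2] →+* M2 (ZMod (2 ^ N))).toMonoidHom.comp T
    with hρdef
  have hρapp : ∀ σ i j, ρ σ i j = PadicInt.toZModPow N (T σ i j) := fun _ _ _ => rfl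
  obtain ⟨bb, hbb⟩ := RT.Lift.exists_basis_residual_tateRep (p := 2) hΔ
  have hker : ∀ g, r g = 1 ↔ red2 hN (ρ g) = 1 := fun g => by
    have e : red2 hN (ρ g) = matRes (residualRep W 2 hΔ) bb g := by
      ext i j
      rw [hbb]
      exact castHom_toZModPow hN _
    rw [hcomp g, e]
    show _ ↔ LinearMap.toMatrixAlgEquiv bb ((residualRep W 2 hΔ).ρ g) = 1
    rw [← map_one (LinearMap.toMatrixAlgEquiv bb), EquivLike.apply_eq_iff_eq]
  have hdet : ∀ g, FixesMu (12 * 2 ^ N) g → (ρ g).det = 1 := fun g hg => by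
    have h1 := (detIsCyclotomic_tateRep (p := 2) hΔ).2 N g 1 fun μ hμ => by
      rw [pow_one]
      exact hg μ (by rw [mul_comm, pow_mul, hμ, one_pow])
    have e : (ρ g).det = PadicInt.toZModPow N (T g).det := (RingHom.map_det _ _).symm
    rw [e, show (T g).det = LinearMap.det ((tateRep W 2 hΔ).ρ g) from
      LinearMap.det_toMatrix b₀ _, ← sub_eq_zero, ← map_one (PadicInt.toZModPow N), ← map_sub,
      ← RingHom.mem_ker, PadicInt.ker_toZModPow]
    simpa using h1
  have hρ : ∃ L : IntermediateField ℚ QBar, FiniteDimensional ℚ L ∧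
      ∀ σ : Gal, (∀ x ∈ L, σ x = x) → ρ σ = 1 := by
    obtain ⟨L, hL, h1⟩ := (tateRep W 2 hΔ).isAdicContinuous N
    refine ⟨L, hL, fun σ hσ => ?_⟩
    ext i j
    have hm := repr_mem_of_mem_smul_top b₀
      (I := IsLocalRing.maximalIdeal ℤ_[2] ^ N) (h1 σ hσ (b₀ j)) i
    rw [PadicInt.maximalIdeal_eq_span_p, Ideal.span_singleton_pow,
      ← PadicInt.ker_toZModPow, RingHom.mem_ker, map_sub, Finsupp.sub_apply, map_sub,
      sub_eq_zero, Basis.repr_self] at hm
    rw [hρapp, matOf_apply, hm, Finsupp.single_apply, Matrix.one_apply]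
    by_cases hij : i = j
    · subst hij; simp
    · rw [if_neg fun e => hij e.symm, if_neg hij, map_zero]
  have hu : ∃ u, u ∈ AuxSet r ρ (12 * 2 ^ N) := by
    refine ⟨τ, fun z hz => inertia_root hA hq hτ hz fun hd => ?_, ?_,
      fun e => hτδ (h.fix_of_eq_one e)⟩
    · rcases hq.dvd_mul.mp hd with hd | hd
      · exact hq12 hd
      · exact hq2 ((Nat.prime_dvd_prime_iff_eq hq Nat.prime_two).mp (hq.dvd_of_dvd_pow hd))
    · have hu' := isUnipotentOnInertiaAt_tateRep (p := 2) hΔ hq hq2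
        (fun hd => hss q hq hd.2 hd.1) A hA τ hτ
      have etr : (T τ).trace = 2 := by
        have hc := LinearMap.charpoly_toMatrix ((tateRep W 2 hΔ).ρ τ) b₀
        rw [hu', Matrix.charpoly_fin_two] at hc
        have h1 := congrArg (fun P : Polynomial ℤ_[2] => P.coeff 1) hc
        simp [sq, Polynomial.coeff_X, Polynomial.coeff_one, sub_mul, mul_sub,
          Polynomial.coeff_sub] at h1
        show (LinearMap.toMatrix b₀ b₀ ((tateRep W 2 hΔ).ρ τ)).trace = 2
        linear_combination -h1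
      rw [Matrix.trace_fin_two] at etr ⊢
      rw [hρapp, hρapp, ← map_add, etr, map_ofNat]
  obtain ⟨V, φ, hdetV, hV⟩ := exists_detecting h hfin hN (M := 12 * 2 ^ N) (by positivity)
    (dvd_mul_of_dvd_left (by norm_num) _) ρ hρ hker hdet hu (S ∪ W.Δ.natAbs.primeFactors ∪ {2})
  refine ⟨V, φ, hdetV.card_eq h hfin, ?_, hdetV, fun v hv => ?_⟩
  · exact Finset.disjoint_left.mpr fun v hv hS =>
      (hV v hv).1 (Finset.mem_union_left _ (Finset.mem_union_left _ hS))
  obtain ⟨hvS, hvM, -, htr, hdet1, hrne, -⟩ := hV v hv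
  simp only [Finset.mem_union, Finset.mem_singleton, not_or] at hvS
  obtain ⟨⟨-, hvΔ⟩, hv2⟩ := hvS
  obtain ⟨hvp, -, -⟩ := hdetV.prime v hv
  haveI : Fact v.Prime := ⟨hvp⟩
  refine ⟨⟨hvp, hv2, fun hd => hvΔ (Nat.mem_primeFactors.mpr
    ⟨hvp, Int.natCast_dvd.mp hd, Int.natAbs_ne_zero.mpr hΔ⟩), ?_⟩, ?_⟩
  · refine ⟨padicPlace v, CFT.Local.padicPlace_liesOverPrime v, φ v, (hdetV.frob v hv).1, ?_, ?_⟩
    · refine sub_one_sub_one_mem b₀ _ ?_
      rw [map_mul, map_sub, map_one]
      exact sq_sub_one_eq_zero htr hdet1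
    · by_contra hall
      push Not at hall
      refine hrne ((hker _).mpr ?_)
      ext i j
      have hm := repr_mem_of_mem_smul_top b₀ (hall (b₀ j)) i
      rw [show ((tateRep W 2 hΔ).ρ (φ v) - 1) (b₀ j)
        = (tateRep W 2 hΔ).ρ (φ v) (b₀ j) - b₀ j from rfl, map_sub, Finsupp.sub_apply] at hm
      obtain ⟨c, hc⟩ := Ideal.mem_span_singleton'.mp hm
      rw [Basis.repr_self] at hc
      show ZMod.castHom (dvd_pow_self 2 hN.ne') (ZMod 2) (ρ (φ v) i j) = _
      rw [hρapp, castHom_toZModPow hN, matOf_apply,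
        show b₀.repr ((tateRep W 2 hΔ).ρ (φ v) (b₀ j)) i = c * 2 + Finsupp.single j 1 i by
          linear_combination -hc, map_add, map_mul, map_ofNat, show (2 : ZMod 2) = 0 from rfl,
        mul_zero, zero_add, Finsupp.single_apply, Matrix.one_apply]
      by_cases hij : i = j
      · subst hij; simp
      · rw [if_neg fun e => hij e.symm, if_neg hij, map_zero]
  · rw [← Nat.mod_mod_of_dvd _ (dvd_mul_right 12 (2 ^ N)), hvM]

end Fermat.Agent.Two.Tangent
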