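import Fermat.Agent.CFT.Flat.Tame
import Fermat.Agent.CFT.Tangent.LocalPlace

/-!
# Inertia at an odd prime in exponent two

One element of inertia moving `√v` detects every additive function of exponent two on inertia.
-/

set_option autoImplicit false
set_option linter.style.haveILetI false

noncomputable section

namespace Fermat.Agent.Two.Tangent

open Fermat.Agent.Arith Fermat.Agent.CFT.Flat
open Fermat.Agent.CFT.Tangent (IsFiniteLevel)

theorem two_dvd_e₀ {v : ℕ} [hv' : Fact v.Prime] (hv : v.Prime) (hv2 : v ≠ 2) : 2 ∣ e₀ v := by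
  have hmod : v % 2 = 1 := hv.eq_two_or_odd.resolve_left hv2
  rw [e₀_eq]
  exact dvd_mul_of_dvd_right (Nat.dvd_of_mod_eq_zero (by omega)) _

theorem exists_inertia_generator (v : ℕ) [hp : Fact v.Prime] (hv : v ≠ 2) :
    ∃ τ ∈ inG v, (∃ x : QBar, x ^ 2 = (v : QBar) ∧ τ x ≠ x) ∧
      ∀ (A : Type) [AddCommGroup A] (f : GQ → A), (∀ a : A, a + a = 0) → IsFiniteLevel f →
        (∀ g ∈ inG v, ∀ h ∈ inG v, f (g * h) = f g + f h) → f τ = 0 →
          ∀ g ∈ inG v, f g = 0 := by
  obtain ⟨τ, hτ, hprim, hgen⟩ := exists_tame_generator v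
  obtain ⟨m, hm⟩ := two_dvd_e₀ hp.out hv
  refine ⟨τ, hτ, ⟨rad v ^ m, by rw [← pow_mul, mul_comm, ← hm, rad_pow], fun h => ?_⟩,
    fun A _ f hexp hfin hadd hfτ g hg => ?_⟩
  · rw [map_pow, map_rad, mul_pow, mul_eq_right₀ (pow_ne_zero _ (rad_ne_zero v))] at h
    have hdvd := hprim.dvd_of_pow_eq_one m h
    have hpos := e₀_pos v
    have hm0 : 0 < m := by omega
    have := Nat.le_of_dvd hm0 hdvd
    omega
  · obtain ⟨L₀, hL₀, hf⟩ := hfin
    haveI := hL₀
    haveI : Normal ℚ QBar := IsAlgClosure.normal ℚ QBar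
    let L : IntermediateField ℚ QBar := IntermediateField.normalClosure ℚ L₀ QBar
    haveI : Normal ℚ L := normalClosure.normal ℚ L₀ QBar
    set H : Subgroup GQ := inG v ⊓ L.fixingSubgroup
    have hH : IsLevel v H := ⟨inf_le_left, L, inferInstance, le_rfl⟩
    have hker : ∀ h ∈ H, f h = 0 := fun h hh => hf h fun x hx =>
      (IntermediateField.mem_fixingSubgroup_iff _ _).mp hh.2 x (L₀.le_normalClosure hx)
    have hnorm : ∀ g ∈ inG v, ∀ h ∈ H, g⁻¹ * h * g ∈ H := by
      intro g hg h hh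
      refine ⟨(inG v).mul_mem ((inG v).mul_mem ((inG v).inv_mem hg) hh.1) hg, ?_⟩
      show g⁻¹ * h * g ∈ L.fixingSubgroup
      rw [IntermediateField.mem_fixingSubgroup_iff]
      intro x hx
      have hgx : g x ∈ L := by
        have e := AlgEquiv.restrictNormal_commutes g L ⟨x, hx⟩
        rw [show g x = ((g.restrictNormal L ⟨x, hx⟩ : L) : QBar) from e.symm]
        exact (g.restrictNormal L ⟨x, hx⟩).2
      rw [AlgEquiv.mul_apply, AlgEquiv.mul_apply,
        (IntermediateField.mem_fixingSubgroup_iff _ _).mp hh.2 _ hgx]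
      exact g.symm_apply_apply x
    have h1 : f 1 = 0 := hker 1 H.one_mem
    let χ : inG v →* Multiplicative A :=
      { toFun := fun g => Multiplicative.ofAdd (f (g : GQ))
        map_one' := by simp [h1]
        map_mul' := fun a b => by
          simp only [Subgroup.coe_mul, hadd _ a.2 _ b.2, ofAdd_add] }
    have hexp' : ∀ a, χ a ^ e₀ v = 1 := fun a => by
      rw [hm, pow_mul, sq, show χ a * χ a = 1 from
        Multiplicative.toAdd.injective (hexp (f (a : GQ))), one_pow]
    have htame : ∀ t ∈ tame v, f t = 0 := fun t ht =>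
      Multiplicative.ofAdd.injective ((eq_one_of_mem_tame v χ hH hnorm
        (fun h hh => show Multiplicative.ofAdd (f h) = 1 by rw [hker h hh, ofAdd_zero]) hexp' ht).trans
          ofAdd_zero.symm)
    obtain ⟨i, hi⟩ := hgen g hg
    have hpow : ∀ n : ℕ, f (τ ^ n) = 0 := fun n => by
      induction n with
      | zero => rw [pow_zero]; exact h1
      | succ n ih => rw [pow_succ, hadd _ (pow_mem hτ n) _ hτ, ih, hfτ, add_zero]
    rw [show g = τ ^ i * ((τ ^ i)⁻¹ * g) by group,
      hadd _ (pow_mem hτ i) _ ((mem_tame v).mp hi).1, hpow, htame _ hi, add_zero]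

end Fermat.Agent.Two.Tangent
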