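import Fermat.Agent.Two.Tangent.Basic
import Fermat.Agent.Two.Tangent.Inertia

/-!
# The Selmer classes of the Steinberg part are trivial

A class of the Steinberg part allowed to ramify along the Steinberg line at the primes of a
detecting set `V`, with vanishing Frobenius functional there, is a coboundary: quadratic
reciprocity in the cubic field against the dual classes of `V` kills the ramification.
-/

set_option autoImplicit false
set_option linter.style.haveILetI false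
set_option linter.unusedSectionVars false

noncomputable section

namespace Fermat.Agent.Two.Tangent

open Fermat.Agent.Deform Fermat.Agent.Arith
open Fermat.Agent.CFT.Flat (HasDeep inG)
open Fermat.Agent.CFT.Tangent (IsAdCocycle IsFiniteLevel cobdLin cobdLin_apply)
open scoped Classical Pointwise

variable {k : Type} [Field k]

/-- The elements acting on the residual representation as `1` or `R`. -/
def InCubic (r : Gal →* M2 k) (R : M2 k) (g : Gal) : Prop := r g = 1 ∨ r g = R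

/-- Quadratic reciprocity in the cubic field, for characters of its Galois group. -/
def CubicRecip (r : Gal →* M2 k) : Prop :=
  ∀ (R : M2 k) (V : Finset ℕ) (φ τ g₁ g₂ : ℕ → Gal) (ψ₁ ψ₂ : Gal → ZMod 2),
    (∃ σ, r σ = R) → R ≠ 1 → R * R = 1 →
    (∀ v ∈ V, v.Prime ∧ v ≠ 2) →
    (∀ v ∈ V, ∀ [Fact v.Prime], (padicPlace v).IsFrobeniusAt (φ v) v ∧ τ v ∈ inG v ∧
      (∃ x : QBar, x ^ 2 = (v : QBar) ∧ τ v x ≠ x) ∧ (∀ t ∈ inG v, r t = 1) ∧
      r (g₁ v * φ v * (g₁ v)⁻¹) = R ∧ r (g₂ v * φ v * (g₂ v)⁻¹) ≠ R ∧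
      r (g₂ v * φ v * (g₂ v)⁻¹) ≠ 1 ∧ r (g₂ v * φ v ^ 2 * (g₂ v)⁻¹) = 1) →
    (∀ ψ ∈ ({ψ₁, ψ₂} : Set (Gal → ZMod 2)), IsFiniteLevel ψ ∧
      (∀ a b, InCubic r R a → InCubic r R b → ψ (a * b) = ψ a + ψ b) ∧ HasDeep 2 ψ 5 ∧
      ∀ (ι : QBar →+* ℂ) (c : Gal), (∀ x, ι (c x) = starRingEnd ℂ (ι x)) → InCubic r R c →
        ψ c = 0) →
    (∀ q : ℕ, q.Prime → q ≠ 2 → ∀ A : ValuationSubring QBar, A.LiesOverPrime q →
      ∀ t ∈ A.inertiaSubgroupIn ℚ, InCubic r R t → ψ₁ t = 0) →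
    (∀ q : ℕ, q.Prime → q ≠ 2 → q ∉ V → ∀ A : ValuationSubring QBar, A.LiesOverPrime q →
      ∀ t ∈ A.inertiaSubgroupIn ℚ, InCubic r R t → ψ₂ t = 0) →
    ∑ v ∈ V, (ψ₁ (g₁ v * φ v * (g₁ v)⁻¹) * ψ₂ (g₁ v * τ v * (g₁ v)⁻¹) +
      ψ₁ (g₂ v * φ v ^ 2 * (g₂ v)⁻¹) * ψ₂ (g₂ v * τ v * (g₂ v)⁻¹)) = 0

variable [CharP k 2] {r : Gal →* M2 k} {D : Finset ℕ} {δ : QBar}

theorem add_self_matrix (X : M2 k) : X + X = 0 := by
  ext i j
  exact CharTwo.add_self_eq_zero _

theorem Dihedral.conj_move (h : Dihedral r D δ) {σ τ : Gal} (hσ : σ δ ≠ δ) :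
    (τ * σ * τ⁻¹) δ ≠ δ := fun e => by
  have e1 : r (τ * σ * τ⁻¹) 0 1 = 0 ∧ r (τ * σ * τ⁻¹) 1 0 = 0 := (h.diag_iff _).mpr e
  have e2 : (r (τ * σ * τ⁻¹)).trace = (r σ).trace := by
    rw [map_mul, map_mul, Matrix.trace_mul_comm, ← mul_assoc, rinv_mul, one_mul]
  have e3 : r (τ * σ * τ⁻¹) = 1 := h.eq_one_of_fix e (e2.trans (h.trace_of_move hσ))
  have e4 : r σ = 1 := by
    calc r σ = r (τ⁻¹ * (τ * σ * τ⁻¹) * τ) := by congr 1; group
      _ = 1 := by rw [map_mul, map_mul, e3, mul_one, rinv_mul]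
  exact hσ (h.fix_of_eq_one e4)

theorem Dihedral.antidiag_form (h : Dihedral r D δ) {σ : Gal} (hσ : σ δ ≠ δ) :
    ∃ α β : k, α * β = 1 ∧ r σ = !![0, α; β, 0] := by
  obtain ⟨ω, hω, hf⟩ := h.form
  obtain ⟨a, ha⟩ := (hf σ).2 hσ
  exact ⟨_, _, by rw [← pow_add, show a + 2 * a = 3 * a by ring, pow_mul, omega_cube hω, one_pow],
    ha⟩

/-- The square of a reflection. -/
theorem Dihedral.off_sq (h : Dihedral r D δ) {x : Gal → M2 k} (hx : IsAdCocycle r x)
    (hoff : ∀ σ, dM (x σ) = 0) {σ : Gal} (hσ : σ δ ≠ δ) :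
    x (σ * σ) = evTr r x σ • r σ := by
  obtain ⟨α, β, hαβ, hr⟩ := h.antidiag_form hσ
  have h00 : x σ 0 0 = 0 := by simpa [dM_apply] using congrFun (congrFun (hoff σ) 0) 0
  have h11 : x σ 1 1 = 0 := by simpa [dM_apply] using congrFun (congrFun (hoff σ) 1) 1
  have hxσ : x σ = !![0, x σ 0 1; x σ 1 0, 0] := by
    ext i j
    fin_cases i <;> fin_cases j <;> simp [h00, h11]
  rw [hx σ σ, h.inv_of_move hσ, evTr, hr]
  rw [hxσ, Matrix.mul_fin_two, Matrix.mul_fin_two, Matrix.mul_fin_two, Matrix.trace_fin_two_of]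
  ext i j
  fin_cases i <;> fin_cases j <;> simp
  · linear_combination (-(x σ 0 1)) * hαβ
  · linear_combination (-(x σ 1 0)) * hαβ

theorem Dihedral.evTr_eq_zero_of_sq (h : Dihedral r D δ) {x : Gal → M2 k} (hx : IsAdCocycle r x)
    (hoff : ∀ σ, dM (x σ) = 0) {σ : Gal} (hσ : σ δ ≠ δ) (h0 : x (σ * σ) = 0) :
    evTr r x σ = 0 := by
  have e := h.off_sq hx hoff hσ
  rw [h0] at e
  obtain ⟨α, β, hαβ, hr⟩ := h.antidiag_form hσ
  rw [hr] at e
  have e01 := congrFun (congrFun e 0) 1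
  simp at e01
  rcases e01 with e' | e'
  · exact e'
  · rw [e', zero_mul] at hαβ
    exact absurd hαβ zero_ne_one

/-- The trace pairing of two reflections. -/
theorem Dihedral.trace_mul_move (h : Dihedral r D δ) {σ τ : Gal} (hσ : σ δ ≠ δ) (hτ : τ δ ≠ δ)
    (hne : r σ ≠ r τ) : (r σ * r τ).trace = 1 := by
  rw [← map_mul]
  refine h.trace_eq_one fun e => hne ?_
  have hfix : (σ * τ) δ = δ := by
    rcases h.delta_or_neg τ with e' | e'
    · exact absurd e' hτ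
    rcases h.delta_or_neg σ with e'' | e''
    · exact absurd e'' hσ
    rw [AlgEquiv.mul_apply, e', map_neg, e'', neg_neg]
  have e1 := h.eq_one_of_fix hfix e
  calc r σ = r σ * (r τ * r τ) := by rw [h.sq_of_move hτ, mul_one]
    _ = r τ := by rw [← mul_assoc, ← map_mul, e1, one_mul]

theorem Dihedral.exists_conj_eq (h : Dihedral r D δ) {σ τ : Gal} (hσ : σ δ ≠ δ) (hτ : τ δ ≠ δ) :
    ∃ g : Gal, r (g * τ * g⁻¹) = r σ := by
  obtain ⟨ω, hω, hf⟩ := h.form
  obtain ⟨a, ha⟩ := (hf σ).2 hσ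
  obtain ⟨b, hb⟩ := (hf τ).2 hτ
  obtain ⟨g, hg, hgr⟩ := h.exists_eq_rot hω (fun s => (hf s).1) (2 * a + b)
  have hinv : r g⁻¹ = !![ω ^ (2 * (2 * a + b)), 0; 0, ω ^ (2 * a + b)] := by
    have h1 : r g * !![ω ^ (2 * (2 * a + b)), 0; 0, ω ^ (2 * a + b)] = 1 := by
      rw [hgr, Matrix.mul_fin_two]
      simp only [mul_zero, zero_mul, add_zero, zero_add, ← pow_add]
      rw [show 2 * a + b + 2 * (2 * a + b) = 3 * (2 * a + b) by ring,
        show 2 * (2 * a + b) + (2 * a + b) = 3 * (2 * a + b) by ring, pow_mul, omega_cube hω,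
        one_pow, Matrix.one_fin_two]
    calc r g⁻¹ = r g⁻¹ * (r g * !![ω ^ (2 * (2 * a + b)), 0; 0, ω ^ (2 * a + b)]) := by
          rw [h1, mul_one]
      _ = _ := by rw [← mul_assoc, rinv_mul, one_mul]
  refine ⟨g, ?_⟩
  rw [map_mul, map_mul, hgr, hinv, hb, ha, Matrix.mul_fin_two, Matrix.mul_fin_two]
  simp only [mul_zero, zero_mul, add_zero, zero_add, ← pow_add]
  rw [pow_eq_pow_mod (2 * a + b + b + (2 * a + b)) (omega_cube hω),
    pow_eq_pow_mod (2 * (2 * a + b) + 2 * b + 2 * (2 * a + b)) (omega_cube hω),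
    show (2 * a + b + b + (2 * a + b)) % 3 = a % 3 by omega,
    show (2 * (2 * a + b) + 2 * b + 2 * (2 * a + b)) % 3 = 2 * a % 3 by omega,
    ← pow_eq_pow_mod _ (omega_cube hω), ← pow_eq_pow_mod _ (omega_cube hω)]

theorem Dihedral.exists_other_move (h : Dihedral r D δ) {σ : Gal} (hσ : σ δ ≠ δ) :
    ∃ τ : Gal, τ δ ≠ δ ∧ r τ ≠ r σ := by
  obtain ⟨t, ht⟩ := h.exists_trace_ne_zero
  have htfix : t δ = δ := by_contra fun e => ht (h.trace_of_move e)
  refine ⟨σ * t, by rw [AlgEquiv.mul_apply, htfix]; exact hσ, fun e => ht ?_⟩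
  have e1 : r t = 1 := by
    calc r t = r σ⁻¹ * r (σ * t) := by rw [map_mul, ← mul_assoc, rinv_mul, one_mul]
      _ = 1 := by rw [e, rinv_mul]
  rw [e1, Matrix.trace_one, Fintype.card_fin]
  exact CharTwo.two_eq_zero

/-- `X ↦ tr (X R)` followed by an additive functional. -/
def pairHom (R : M2 k) (l : k →+ ZMod 2) : M2 k →+ ZMod 2 :=
  l.comp ((Matrix.traceAddMonoidHom (Fin 2) k).comp (AddMonoidHom.mulRight R))

theorem pairHom_apply (R : M2 k) (l : k →+ ZMod 2) (X : M2 k) :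
    pairHom R l X = l (X * R).trace := rfl

section

variable (h : Dihedral r D δ) {σ₀ : Gal} (hσ₀ : σ₀ δ ≠ δ)

include h hσ₀

theorem move_of_eq {g : Gal} (hg : r g = r σ₀) : g δ ≠ δ := fun e =>
  hσ₀ ((h.diag_iff σ₀).mp (hg ▸ (h.diag_iff g).mpr e))

/-- The character of the cubic field attached to a class and a functional. -/
theorem pairHom_add {x : Gal → M2 k} (hx : IsAdCocycle r x) (l : k →+ ZMod 2) {a b : Gal}
    (ha : InCubic r (r σ₀) a) :
    pairHom (r σ₀) l (x (a * b)) = pairHom (r σ₀) l (x a) + pairHom (r σ₀) l (x b) := by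
  rw [hx, map_add, add_comm]
  congr 1
  simp only [pairHom_apply]
  congr 1
  rcases ha with e | e
  · have e' : r a⁻¹ = 1 := by simpa [e] using rinv_mul r a
    rw [e, e', one_mul, mul_one]
  · rw [h.inv_of_move (move_of_eq h hσ₀ e), e, Matrix.trace_mul_comm, ← mul_assoc, ← mul_assoc,
      h.sq_of_move hσ₀, one_mul, Matrix.trace_mul_comm]

theorem pairHom_conjugation {x : Gal → M2 k} (hx : IsAdCocycle r x)
    (hoff : ∀ σ, dM (x σ) = 0) (l : k →+ ZMod 2) (ι : QBar →+* ℂ) (c : Gal)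
    (hc : ∀ y, ι (c y) = starRingEnd ℂ (ι y)) (hcR : InCubic r (r σ₀) c) :
    pairHom (r σ₀) l (x c) = 0 := by
  have hcc : c * c = 1 := AlgEquiv.ext fun y => ι.injective (by
    rw [AlgEquiv.mul_apply, hc, hc, Complex.conj_conj]; rfl)
  have hmove : c δ ≠ δ := fun e => by
    have h1 := hc δ
    rw [e] at h1
    obtain ⟨t, ht⟩ := Complex.conj_eq_iff_real.mp h1.symm
    have h2 := congrArg ι h.sq
    rw [map_pow, map_neg, map_natCast, ht, ← Complex.ofReal_pow, ← Complex.ofReal_natCast,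
      ← Complex.ofReal_neg, Complex.ofReal_inj] at h2
    have h3 : (0 : ℝ) < ((∏ ℓ ∈ D, ℓ : ℕ) : ℝ) := Nat.cast_pos.mpr h.prod_pos
    nlinarith [sq_nonneg t]
  have hc' : r c = r σ₀ := hcR.resolve_left fun e => hmove (h.fix_of_eq_one e)
  have h0 := h.evTr_eq_zero_of_sq hx hoff hmove (by rw [hcc, hx.one])
  rw [pairHom_apply, ← hc']
  rw [evTr] at h0
  rw [h0, map_zero]

theorem pairHom_inertia {x : Gal → M2 k} (hx : IsAdCocycle r x)
    (hoff : ∀ σ, dM (x σ) = 0) (l : k →+ ZMod 2) {A : ValuationSubring QBar}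
    (hker : ∀ t ∈ A.inertiaSubgroupIn ℚ, r t = 1 → x t = 0) {t : Gal}
    (ht : t ∈ A.inertiaSubgroupIn ℚ) (htR : InCubic r (r σ₀) t) :
    pairHom (r σ₀) l (x t) = 0 := by
  rcases htR with e | e
  · rw [hker t ht e, map_zero]
  · have hm := move_of_eq h hσ₀ e
    have h0 := h.evTr_eq_zero_of_sq hx hoff hm
      (hker _ (mul_mem ht ht) (by rw [map_mul, h.sq_of_move hm]))
    rw [pairHom_apply, ← e]
    rw [evTr] at h0
    rw [h0, map_zero]

theorem isFiniteLevel_pairHom {x : Gal → M2 k} (hx : IsFiniteLevel x) (l : k →+ ZMod 2) :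
    IsFiniteLevel fun σ => pairHom (r σ₀) l (x σ) := by
  obtain ⟨L, hL, hL'⟩ := hx
  exact ⟨L, hL, fun σ hσ => by simp only [hL' σ hσ, map_zero]⟩

end

/-- **Triviality of the Selmer classes.** -/
theorem exists_eq_cobdLin (h : Dihedral r D δ) (hrec : CubicRecip r) {V : Finset ℕ} {φ : ℕ → Gal}
    (hV : IsDetecting r D δ V φ) {c : Gal → M2 k} (hc : IsOffClass r V c)
    (hline : ∀ v ∈ V, ∀ [Fact v.Prime], ∀ τ ∈ inG v, ∃ t : k, c τ = t • r (φ v))
    (hev : ∀ v ∈ V, evTr r c (φ v) = 0) : ∃ X : M2 k, c = cobdLin r X := by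
  obtain ⟨σ₀, hσ₀⟩ := h.exists_move
  have hVp : ∀ v ∈ V, v.Prime ∧ v ≠ 2 := fun v hv => by
    obtain ⟨hp, h4, -⟩ := hV.prime v hv
    exact ⟨hp, by rintro rfl; norm_num at h4⟩
  have hr1 : ∀ v ∈ V, ∀ A : ValuationSubring QBar, A.LiesOverPrime v →
      ∀ t ∈ A.inertiaSubgroupIn ℚ, r t = 1 :=
    fun v hv => h.unram v (hVp v hv).1 (hVp v hv).2 (hV.prime v hv).2.2
  have hgen : ∀ v : ℕ, ∃ τ : Gal, v ∈ V → ∀ [Fact v.Prime], τ ∈ inG v ∧
      (∃ x : QBar, x ^ 2 = (v : QBar) ∧ τ x ≠ x) ∧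
      ∀ (A : Type) [AddCommGroup A] (f : GQ → A), (∀ a : A, a + a = 0) → IsFiniteLevel f →
        (∀ g ∈ inG v, ∀ g' ∈ inG v, f (g * g') = f g + f g') → f τ = 0 →
          ∀ g ∈ inG v, f g = 0 := fun v => by
    by_cases hv : v ∈ V
    · haveI : Fact v.Prime := ⟨(hVp v hv).1⟩
      obtain ⟨τ, h1, h2, h3⟩ := exists_inertia_generator v (hVp v hv).2
      exact ⟨τ, fun _ _ => ⟨h1, h2, h3⟩⟩
    · exact ⟨1, fun hv' => absurd hv' hv⟩
  choose τ hτ using hgen
  have hconj : ∀ v : ℕ, ∃ g₁ g₂ : Gal, v ∈ V → r (g₁ * φ v * g₁⁻¹) = r σ₀ ∧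
      r (g₂ * φ v * g₂⁻¹) ≠ r σ₀ := fun v => by
    by_cases hv : v ∈ V
    · haveI : Fact v.Prime := ⟨(hVp v hv).1⟩
      have hm := (hV.frob v hv).2
      obtain ⟨σ₁, hσ₁, hne⟩ := h.exists_other_move hσ₀
      obtain ⟨g₁, hg₁⟩ := h.exists_conj_eq hσ₀ hm
      obtain ⟨g₂, hg₂⟩ := h.exists_conj_eq hσ₁ hm
      exact ⟨g₁, g₂, fun _ => ⟨hg₁, hg₂ ▸ hne⟩⟩
    · exact ⟨1, 1, fun hv' => absurd hv' hv⟩
  choose g₁ g₂ hg using hconj
  -- the coordinate on inertia vanishes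
  have hzero : ∀ w ∈ V, ∀ [Fact w.Prime], c (τ w) = 0 := by
    intro w hw _
    obtain ⟨t, ht⟩ := hline w hw (τ w) (hτ w hw).1
    suffices ht0 : t = 0 by rw [ht, ht0, zero_smul]
    letI : Algebra (ZMod 2) k := ZMod.algebra k 2
    refine (Module.forall_dual_apply_eq_zero_iff (ZMod 2) t).mp fun l' => ?_
    obtain ⟨l, hl⟩ : ∃ l : Module.Dual (ZMod 2) k, l 1 = 1 := by
      obtain ⟨l, hl⟩ : ∃ l : Module.Dual (ZMod 2) k, l 1 ≠ 0 := by
        by_contra! hall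
        exact one_ne_zero ((Module.forall_dual_apply_eq_zero_iff (ZMod 2) (1 : k)).mp hall)
      exact ⟨l, (show ∀ z : ZMod 2, z ≠ 0 → z = 1 by decide) _ hl⟩
    obtain ⟨x, hx, hxw⟩ := hV.dual w hw
    have key := hrec (r σ₀) V φ τ g₁ g₂ (fun σ => pairHom (r σ₀) l.toAddMonoidHom (x σ))
      (fun σ => pairHom (r σ₀) l'.toAddMonoidHom (c σ)) ⟨σ₀, rfl⟩
      (fun e => hσ₀ (h.fix_of_eq_one e)) (h.sq_of_move hσ₀) hVp
      (fun v hv _ => by
        have hm := (hV.frob v hv).2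
        have hm₂ := h.conj_move (τ := g₂ v) hm
        refine ⟨(hV.frob v hv).1, (hτ v hv).1, (hτ v hv).2.1,
          hr1 v hv _ (Fermat.Agent.CFT.Local.padicPlace_liesOverPrime v), (hg v hv).1, (hg v hv).2,
          fun e => hm₂ (h.fix_of_eq_one e), ?_⟩
        rw [map_mul, map_mul, map_pow, pow_two, h.sq_of_move hm, mul_one, rmul_inv])
      (fun ψ hψ => by
        rcases hψ with rfl | rfl
        · exact ⟨isFiniteLevel_pairHom h hσ₀ hx.level _,
            fun a b ha _ => pairHom_add h hσ₀ hx.cocycle _ ha, hx.deep (pairHom (r σ₀) _),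
            pairHom_conjugation h hσ₀ hx.cocycle hx.off _⟩
        · exact ⟨isFiniteLevel_pairHom h hσ₀ hc.level _,
            fun a b ha _ => pairHom_add h hσ₀ hc.cocycle _ ha, hc.deep (pairHom (r σ₀) _),
            pairHom_conjugation h hσ₀ hc.cocycle hc.off _⟩)
      (fun q hq hq2 A hA t ht htR => pairHom_inertia h hσ₀ hx.cocycle hx.off _
        (hx.unram q hq hq2 (Finset.notMem_empty q) A hA) ht htR)
      (fun q hq hq2 hqV A hA t ht htR => pairHom_inertia h hσ₀ hc.cocycle hc.off _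
        (hc.unram q hq hq2 hqV A hA) ht htR)
    rw [Finset.sum_eq_single w] at key
    rotate_left
    · intro v hv hvw
      haveI : Fact v.Prime := ⟨(hVp v hv).1⟩
      obtain ⟨hg₁, hg₂⟩ := hg v hv
      have hm := (hV.frob v hv).2
      obtain ⟨s, hs⟩ := hline v hv (τ v) (hτ v hv).1
      have hτ1 := hr1 v hv _ (Fermat.Agent.CFT.Local.padicPlace_liesOverPrime v) _ (hτ v hv).1
      have e1 : pairHom (r σ₀) l.toAddMonoidHom (x (g₁ v * φ v * (g₁ v)⁻¹)) = 0 := by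
        rw [pairHom_apply, ← hg₁]
        show l (evTr r x (g₁ v * φ v * (g₁ v)⁻¹)) = 0
        rw [evTr_conj hx.cocycle, hxw v hv, if_neg hvw, map_zero]
      have e2 : x (g₂ v * φ v ^ 2 * (g₂ v)⁻¹) = 0 := by
        rw [pow_two, map_of_map_eq_one hx.cocycle _
          (by rw [map_mul, h.sq_of_move hm]), h.off_sq hx.cocycle hx.off hm, hxw v hv,
          if_neg hvw, zero_smul, mul_zero, zero_mul]
      rw [e1, e2, map_zero, zero_mul, zero_mul, add_zero]
    · exact fun h' => absurd hw h'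
    obtain ⟨hg₁, hg₂⟩ := hg w hw
    have hm := (hV.frob w hw).2
    have hτ1 := hr1 w hw _ (Fermat.Agent.CFT.Local.padicPlace_liesOverPrime w) _ (hτ w hw).1
    have hconjc : ∀ g : Gal, c (g * τ w * g⁻¹) = t • r (g * φ w * g⁻¹) := fun g => by
      rw [map_of_map_eq_one hc.cocycle g hτ1, ht, map_mul, map_mul, mul_smul_comm, smul_mul_assoc]
    have hm₂ := h.conj_move (τ := g₂ w) hm
    have e1 : pairHom (r σ₀) l'.toAddMonoidHom (c (g₁ w * τ w * (g₁ w)⁻¹)) = 0 := by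
      rw [pairHom_apply, hconjc, hg₁, smul_mul_assoc, h.sq_of_move hσ₀, Matrix.trace_smul,
        Matrix.trace_one, Fintype.card_fin, show ((2 : ℕ) : k) = 0 from CharTwo.two_eq_zero,
        smul_zero, map_zero]
    have e2 : pairHom (r σ₀) l'.toAddMonoidHom (c (g₂ w * τ w * (g₂ w)⁻¹)) = l' t := by
      rw [pairHom_apply, hconjc, smul_mul_assoc, Matrix.trace_smul,
        h.trace_mul_move hm₂ hσ₀ hg₂, smul_eq_mul, mul_one]
      rfl
    have e3 : pairHom (r σ₀) l.toAddMonoidHom (x (g₂ w * φ w ^ 2 * (g₂ w)⁻¹)) = 1 := by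
      rw [pow_two, map_of_map_eq_one hx.cocycle _ (by rw [map_mul, h.sq_of_move hm]),
        h.off_sq hx.cocycle hx.off hm, hxw w hw, if_pos rfl, one_smul, ← map_mul, ← map_mul,
        pairHom_apply, h.trace_mul_move hm₂ hσ₀ hg₂]
      exact hl
    rw [e1, e2, e3, mul_zero, zero_add, one_mul] at key
    exact key
  -- hence the class is unramified at `V`
  have hc0 : IsOffClass r ∅ c := ⟨hc.cocycle, hc.level, hc.off, fun q hq hq2 _ A hA t ht htr => by
    by_cases hqV : q ∈ V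
    swap
    · exact hc.unram q hq hq2 hqV A hA t ht htr
    haveI : Fact q.Prime := ⟨hq⟩
    have hr1' := hr1 q hqV _ (Fermat.Agent.CFT.Local.padicPlace_liesOverPrime q)
    have hall : ∀ s ∈ inG q, c s = 0 :=
      (hτ q hqV).2.2 (M2 k) c add_self_matrix hc.level
        (fun a ha b hb => by
          have e : r a⁻¹ = 1 := hr1' _ ((inG q).inv_mem ha)
          rw [hc.cocycle, hr1' a ha, e, one_mul, mul_one, add_comm])
        (hzero q hqV)
    obtain ⟨g, hgA⟩ := exists_smul_eq hA (Fermat.Agent.CFT.Local.padicPlace_liesOverPrime q) hq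
    have hs : g * t * g⁻¹ ∈ inG q := by
      show g * t * g⁻¹ ∈ (padicPlace q).inertiaSubgroupIn ℚ
      rw [← hgA]
      exact mem_inertia_smul_iff.mpr ht
    have e := hall _ hs
    rw [map_of_map_eq_one hc.cocycle g htr] at e
    calc c t = r g⁻¹ * (r g * c t * r g⁻¹) * r g := by
          rw [← mul_assoc, ← mul_assoc, rinv_mul, one_mul, mul_assoc, rinv_mul, mul_one]
      _ = 0 := by rw [e, mul_zero, zero_mul], hc.deep⟩
  exact hV.detect c hc0 hev

end Fermat.Agent.Two.Tangent
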