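import Fermat.Agent.Two.Lower.Span
import Fermat.Agent.Deform.Residual
import Fermat.Agent.EC.Rep.Residual

/-!
# The action on the two-torsion and the square root of the discriminant

The three points of order two of a `TwoCurve` are permuted like the roots of the two-torsion
polynomial, whose discriminant is `16 Δ`.
-/

set_option autoImplicit false
set_option synthInstance.maxHeartbeats 400000
set_option linter.style.haveILetI false

noncomputable section

namespace Fermat.Agent.Two.Tangent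

open scoped WeierstrassCurve.Affine
open Matrix Fermat.Agent.Deform Fermat.Agent.Arith Fermat.Agent.EC.Rep

theorem perm_three : ∀ π : Fin 3 → Fin 3, Function.Injective π →
    π = id ∨ π = ![0, 2, 1] ∨ π = ![2, 1, 0] ∨ π = ![1, 0, 2] ∨ π = ![1, 2, 0] ∨ π = ![2, 0, 1] := by
  decide

theorem det_sub_one_eq_trace : ∀ X : M2 (ZMod 2), X.det ≠ 0 → (X - 1).det = X.trace := by
  decide

set_option synthInstance.maxSize 2048 in
set_option maxRecDepth 8000 in
theorem eq_one_or_eq_of_trace_zero : ∀ X Y : M2 (ZMod 2), X.det ≠ 0 → Y.det ≠ 0 → X.trace = 0 →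
    Y.trace = 0 → (X * Y).trace = 0 → X = 1 ∨ Y = 1 ∨ X = Y := by
  decide

theorem ne_zero_iff_eq_one : ∀ t : ZMod 2, t ≠ 0 ↔ t = 1 := by decide

theorem eq_zero_of_ne_one : ∀ t : ZMod 2, t ≠ 1 → t = 0 := by decide

variable {W : WeierstrassCurve ℤ}

set_option maxHeartbeats 1000000 in
/-- The roots of the two-torsion polynomial and the points of order two above them. -/
theorem exists_roots [Fact (Nat.Prime 2)] (hΔ : W.Δ ≠ 0) :
    ∃ (e : Fin 3 → QBar) (pt : Fin 3 → (residualRep W 2 hΔ).V),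
      Function.Injective e ∧ Function.Injective pt ∧
      (∀ v : (residualRep W 2 hΔ).V, v ≠ 0 ↔ ∃ i, pt i = v) ∧
      (∀ σ : Gal, ∃ π : Fin 3 → Fin 3, Function.Injective π ∧
        ∀ i, σ (e i) = e (π i) ∧ (residualRep W 2 hΔ).ρ σ (pt i) = pt (π i)) ∧
      (∀ i, 4 * e i ^ 3 + (W.b₂ : QBar) * e i ^ 2 + 2 * (W.b₄ : QBar) * e i + (W.b₆ : QBar) = 0) ∧
      (W.Δ : QBar) = (4 * ((e 0 - e 1) * (e 0 - e 2) * (e 1 - e 2))) ^ 2 := by
  classical
  set E := (W.map (Int.castRingHom ℚ))⁄(AlgebraicClosure ℚ) with hE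
  set P : Cubic ℚ := (W.map (Int.castRingHom ℚ)).twoTorsionPolynomial with hP
  set φ := algebraMap ℚ (AlgebraicClosure ℚ)
  have ha : P.a ≠ 0 := by
    show (4 : ℚ) ≠ 0
    norm_num
  obtain ⟨e₁, e₂, e₃, h3⟩ := (Cubic.splits_iff_roots_eq_three (φ := φ) ha).mp
    (IsAlgClosed.splits _)
  have hD : P.discr = 16 * (W.Δ : ℚ) := by
    rw [hP, WeierstrassCurve.twoTorsionPolynomial_discr, WeierstrassCurve.map_Δ, eq_intCast]
  have hdisc : P.discr ≠ 0 := by
    rw [hD]; exact mul_ne_zero (by norm_num) (Int.cast_ne_zero.mpr hΔ)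
  obtain ⟨h12, h13, h23⟩ := (Cubic.discr_ne_zero_iff_roots_ne ha h3).mp hdisc
  set e : Fin 3 → AlgebraicClosure ℚ := ![e₁, e₂, e₃] with he
  have hinj : Function.Injective e := by
    intro i j h
    fin_cases i <;> fin_cases j <;>
      first
      | rfl
      | exact absurd h (by simp [he, h12, h13, h23, h12.symm, h13.symm, h23.symm])
  have hroot : ∀ x, 4 * x ^ 3 + (W.b₂ : AlgebraicClosure ℚ) * x ^ 2 +
      2 * (W.b₄ : AlgebraicClosure ℚ) * x + (W.b₆ : AlgebraicClosure ℚ) = 0 ↔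
        ∃ k, e k = x := by
    intro x
    have h0 : (P.map φ).toPoly ≠ 0 := Cubic.ne_zero_of_a_ne_zero
      ((map_ne_zero φ).mpr ha)
    have h1 := Cubic.mem_roots_iff h0 x
    rw [h3] at h1
    simp only [Cubic.map, hP, WeierstrassCurve.twoTorsionPolynomial, WeierstrassCurve.map_b₂,
      WeierstrassCurve.map_b₄, WeierstrassCurve.map_b₆, eq_intCast, map_intCast, map_mul,
      map_ofNat] at h1
    rw [← h1]
    simp only [Multiset.insert_eq_cons, Multiset.mem_cons, Multiset.mem_singleton,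
      Fin.exists_fin_succ, he, IsEmpty.exists_iff, or_false]
    simp [eq_comm]
  have hperm : ∀ (σ : Gal) k, ∃ k', σ (e k) = e k' := by
    intro σ k
    obtain ⟨k', hk'⟩ := (hroot (σ (e k))).mp (by
      have := congrArg σ ((hroot (e k)).mpr ⟨k, rfl⟩)
      simpa [map_ofNat] using this)
    exact ⟨k', hk'.symm⟩
  have hb : E.b₂ = (W.b₂ : AlgebraicClosure ℚ) ∧ E.b₄ = (W.b₄ : AlgebraicClosure ℚ) ∧
      E.b₆ = (W.b₆ : AlgebraicClosure ℚ) := by
    refine ⟨?_, ?_, ?_⟩ <;>
      simp [hE, WeierstrassCurve.baseChange, WeierstrassCurve.map_b₂, WeierstrassCurve.map_b₄,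
        WeierstrassCurve.map_b₆]
  have hEΔ : E.Δ ≠ 0 := by
    rw [hE]
    show ((W.map (Int.castRingHom ℚ)).map _).Δ ≠ 0
    rw [WeierstrassCurve.map_Δ, WeierstrassCurve.map_Δ, eq_intCast, map_intCast]
    exact Int.cast_ne_zero.mpr hΔ
  have hpt : ∀ k, E.toAffine.Equation (e k) (-(E.a₁ * e k + E.a₃) / 2) := by
    intro k
    rw [WeierstrassCurve.Affine.equation_iff]
    have h := (hroot (e k)).mpr ⟨k, rfl⟩
    rw [← hb.1, ← hb.2.1, ← hb.2.2, WeierstrassCurve.b₂, WeierstrassCurve.b₄,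
      WeierstrassCurve.b₆] at h
    field_simp
    linear_combination (-1 : AlgebraicClosure ℚ) * h
  set pt : Fin 3 → PtQ W := fun k => WeierstrassCurve.Affine.Point.some _ _
    ((E.toAffine.equation_iff_nonsingular_of_Δ_ne_zero hEΔ).mp (hpt k)) with hpt'
  have h2pt : ∀ k, ((2 : ℕ) : ℤ) • pt k = 0 := fun k => by
    show (2 : ℤ) • pt k = 0
    rw [two_zsmul, add_eq_zero_iff_eq_neg, hpt', WeierstrassCurve.Affine.Point.neg_some]
    simp only [WeierstrassCurve.Affine.Point.some.injEq, WeierstrassCurve.Affine.negY, true_and]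
    show -(E.a₁ * e k + E.a₃) / 2 = -(-(E.a₁ * e k + E.a₃) / 2) - E.a₁ * e k - E.a₃
    ring
  let ptV : Fin 3 → (residualRep W 2 hΔ).V := fun k =>
    ⟨pt k, (Submodule.mem_torsionBy_iff _ _).mpr (h2pt k)⟩
  have hptinj : Function.Injective ptV := fun i j h => hinj (by
    have h1 : pt i = pt j := congrArg Subtype.val h
    simp only [hpt', WeierstrassCurve.Affine.Point.some.injEq] at h1
    exact h1.1)
  have hne : ∀ i, ptV i ≠ 0 := fun i h =>
    WeierstrassCurve.Affine.Point.some_ne_zero _ (congrArg Subtype.val h)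
  refine ⟨e, ptV, hinj, hptinj, fun v => ⟨fun hv => ?_, ?_⟩, fun σ => ?_,
    fun i => (hroot _).mpr ⟨i, rfl⟩, ?_⟩
  · have hcard : Nat.card (residualRep W 2 hΔ).V = 4 := natCard_torsion W 2 hΔ
    haveI : Finite (residualRep W 2 hΔ).V := Nat.finite_of_card_ne_zero (by omega)
    let f : Option (Fin 3) → (residualRep W 2 hΔ).V := fun o => o.elim 0 ptV
    have hf : Function.Injective f := by
      intro a b h
      cases a <;> cases b <;> simp only [f, Option.elim] at h
      · rfl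
      · exact absurd h.symm (hne _)
      · exact absurd h (hne _)
      · rw [hptinj h]
    obtain ⟨o, ho⟩ := (hf.bijective_of_nat_card_le (by simp [hcard])).2 v
    cases o with
    | none => exact absurd ho.symm hv
    | some i => exact ⟨i, ho⟩
  · rintro ⟨i, rfl⟩
    exact hne i
  · choose π hπ using hperm σ
    refine ⟨π, fun i j h => hinj (σ.injective (by rw [hπ, hπ, h])), fun i => ⟨hπ i, ?_⟩⟩
    refine Subtype.ext ?_
    show σ • pt i = pt (π i)
    simp only [hpt', WeierstrassCurve.Affine.Point.algEquiv_smul_def,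
      WeierstrassCurve.Affine.Point.map_some, WeierstrassCurve.Affine.Point.some.injEq]
    refine ⟨hπ i, ?_⟩
    rw [← hπ i]
    simp [hE, map_ofNat]
  · have h1 := Cubic.discr_eq_prod_three_roots ha h3
    rw [hD, map_mul, map_ofNat, map_intCast,
      show φ P.a = 4 from map_ofNat φ 4] at h1
    simp only [he, Matrix.cons_val_zero, Matrix.cons_val_one, Matrix.cons_val]
    linear_combination h1 / 16

variable [Fact (Nat.Prime 2)]

theorem det_matRes_ne_zero (hΔ : W.Δ ≠ 0) (b : Module.Basis (Fin 2) (ZMod 2) (residualRep W 2 hΔ).V)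
    (σ : Gal) : (matRes (residualRep W 2 hΔ) b σ).det ≠ 0 := fun hd => by
  have h := congrArg Matrix.det (map_mul (matRes (residualRep W 2 hΔ) b) σ σ⁻¹).symm
  rw [Matrix.det_mul, hd, zero_mul, mul_inv_cancel, map_one, Matrix.det_one] at h
  exact zero_ne_one h

theorem trace_eq_zero_iff_fixed (hΔ : W.Δ ≠ 0)
    (b : Module.Basis (Fin 2) (ZMod 2) (residualRep W 2 hΔ).V) (σ : Gal) :
    (matRes (residualRep W 2 hΔ) b σ).trace = 0 ↔
      ∃ v : (residualRep W 2 hΔ).V, v ≠ 0 ∧ (residualRep W 2 hΔ).ρ σ v = v := by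
  have key : (matRes (residualRep W 2 hΔ) b σ - 1).det =
      LinearMap.det ((residualRep W 2 hΔ).ρ σ - 1) := by
    rw [← LinearMap.det_toMatrix b ((residualRep W 2 hΔ).ρ σ - 1)]
    congr 1
    show LinearMap.toMatrixAlgEquiv b ((residualRep W 2 hΔ).ρ σ) - 1 =
      LinearMap.toMatrixAlgEquiv b ((residualRep W 2 hΔ).ρ σ - 1)
    rw [map_sub, map_one]
  rw [← det_sub_one_eq_trace _ (det_matRes_ne_zero hΔ b σ), key,
    LinearMap.det_eq_zero_iff_ker_ne_bot, Submodule.ne_bot_iff]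
  simp only [LinearMap.mem_ker, LinearMap.sub_apply, Module.End.one_apply, sub_eq_zero]
  exact ⟨fun ⟨v, h1, h2⟩ => ⟨v, h2, h1⟩, fun ⟨v, h1, h2⟩ => ⟨v, h2, h1⟩⟩

theorem matRes_eq_one_iff (hΔ : W.Δ ≠ 0)
    (b : Module.Basis (Fin 2) (ZMod 2) (residualRep W 2 hΔ).V) (σ : Gal) :
    matRes (residualRep W 2 hΔ) b σ = 1 ↔
      ∀ v : (residualRep W 2 hΔ).V, (residualRep W 2 hΔ).ρ σ v = v := by
  have key : matRes (residualRep W 2 hΔ) b σ = 1 ↔ (residualRep W 2 hΔ).ρ σ = 1 := by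
    show LinearMap.toMatrixAlgEquiv b ((residualRep W 2 hΔ).ρ σ) = 1 ↔ _
    exact map_eq_one_iff _ (LinearMap.toMatrixAlgEquiv b).injective
  rw [key, LinearMap.ext_iff]
  rfl

/-- A square root of the discriminant is fixed exactly by the even permutations. -/
theorem fix_sqrt_iff (hΔ : W.Δ ≠ 0) (b : Module.Basis (Fin 2) (ZMod 2) (residualRep W 2 hΔ).V)
    {y : QBar} (hy : y ^ 2 = (W.Δ : QBar)) (σ : Gal) :
    σ y = y ↔ matRes (residualRep W 2 hΔ) b σ = 1 ∨
      (matRes (residualRep W 2 hΔ) b σ).trace = 1 := by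
  obtain ⟨e, pt, hinj, hptinj, hall, hperm, -, hd⟩ := exists_roots (W := W) hΔ
  obtain ⟨π, hπinj, hπ⟩ := hperm σ
  set d := (e 0 - e 1) * (e 0 - e 2) * (e 1 - e 2) with hd'
  have hd0 : d ≠ 0 := by
    have h01 : e 0 ≠ e 1 := hinj.ne (by decide)
    have h02 : e 0 ≠ e 2 := hinj.ne (by decide)
    have h12 : e 1 ≠ e 2 := hinj.ne (by decide)
    exact mul_ne_zero (mul_ne_zero (sub_ne_zero.mpr h01) (sub_ne_zero.mpr h02))
      (sub_ne_zero.mpr h12)
  have hσy : (σ y = y ↔ σ d = d) := by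
    have h4 : (4 : QBar) ≠ 0 := by norm_num
    rcases sq_eq_sq_iff_eq_or_eq_neg.mp (hy.trans hd) with rfl | rfl
    · rw [map_mul, map_ofNat, mul_right_inj' h4]
    · rw [map_neg, map_mul, map_ofNat, neg_inj, mul_right_inj' h4]
  rw [hσy]
  have hσd : σ d = (e (π 0) - e (π 1)) * (e (π 0) - e (π 2)) * (e (π 1) - e (π 2)) := by
    rw [hd', map_mul, map_mul, map_sub, map_sub, map_sub, (hπ 0).1, (hπ 1).1, (hπ 2).1]
  have hfix : (matRes (residualRep W 2 hΔ) b σ).trace = 0 ↔ ∃ i, π i = i := by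
    rw [trace_eq_zero_iff_fixed]
    refine ⟨fun ⟨v, hv, hσv⟩ => ?_, fun ⟨i, hi⟩ =>
      ⟨pt i, (hall _).mpr ⟨i, rfl⟩, by rw [(hπ i).2, hi]⟩⟩
    obtain ⟨i, rfl⟩ := (hall v).mp hv
    exact ⟨i, hptinj (by rw [← (hπ i).2, hσv])⟩
  have hone : matRes (residualRep W 2 hΔ) b σ = 1 ↔ π = id := by
    rw [matRes_eq_one_iff]
    refine ⟨fun h => funext fun i => hptinj (by rw [← (hπ i).2, h]; rfl), fun h v => ?_⟩
    rcases eq_or_ne v 0 with rfl | hv
    · exact map_zero _
    · obtain ⟨i, rfl⟩ := (hall v).mp hv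
      rw [(hπ i).2, h]; rfl
  rw [← ne_zero_iff_eq_one, Ne, hfix, hone, hσd, hd']
  have hne : ¬ (-d = d) := fun h => hd0 (by linear_combination h / (-2))
  rcases perm_three π hπinj with rfl | rfl | rfl | rfl | rfl | rfl
  · simp
  all_goals
    simp only [Matrix.cons_val_zero, Matrix.cons_val_one, Matrix.cons_val, Fin.exists_fin_succ,
      IsEmpty.exists_iff]
  · refine iff_of_false (fun h => hne ?_) (by simp; decide)
    rw [hd']; linear_combination h
  · refine iff_of_false (fun h => hne ?_) (by simp; decide)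
    rw [hd']; linear_combination h
  · refine iff_of_false (fun h => hne ?_) (by simp; decide)
    rw [hd']; linear_combination h
  · exact iff_of_true (by ring) (Or.inr (by simp))
  · exact iff_of_true (by ring) (Or.inr (by simp))

/-- Some element acts without fixed point. -/
theorem exists_trace_eq_one (hW : TwoCurve W)
    (b : Module.Basis (Fin 2) (ZMod 2) (residualRep W 2 hW.Δ_ne_zero).V) :
    ∃ σ : Gal, (matRes (residualRep W 2 hW.Δ_ne_zero) b σ).trace = 1 := by
  by_contra! hall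
  replace hall := fun σ => eq_zero_of_ne_one _ (hall σ)
  obtain ⟨v, hv, hfix⟩ : ∃ v : (residualRep W 2 hW.Δ_ne_zero).V, v ≠ 0 ∧
      ∀ σ, (residualRep W 2 hW.Δ_ne_zero).ρ σ v = v := by
    by_cases h1 : ∀ σ, matRes (residualRep W 2 hW.Δ_ne_zero) b σ = 1
    · obtain ⟨e, pt, -, -, hpt, -, -, -⟩ := exists_roots (W := W) hW.Δ_ne_zero
      exact ⟨pt 0, (hpt _).mpr ⟨0, rfl⟩, fun σ => (matRes_eq_one_iff _ b σ).mp (h1 σ) _⟩
    push Not at h1
    obtain ⟨σ₁, hσ₁⟩ := h1
    obtain ⟨v, hv, hσv⟩ := (trace_eq_zero_iff_fixed _ b σ₁).mp (hall σ₁)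
    refine ⟨v, hv, fun σ => ?_⟩
    rcases eq_one_or_eq_of_trace_zero _ _ (det_matRes_ne_zero _ b σ) (det_matRes_ne_zero _ b σ₁)
      (hall σ) (hall σ₁) (by rw [← map_mul]; exact hall _) with e | e | e
    · exact (matRes_eq_one_iff _ b σ).mp e v
    · exact absurd e hσ₁
    · have e' : (residualRep W 2 hW.Δ_ne_zero).ρ σ = (residualRep W 2 hW.Δ_ne_zero).ρ σ₁ :=
        (LinearMap.toMatrixAlgEquiv b).injective e
      rw [e', hσv]
  obtain ⟨e, pt, -, hptinj, hpt, hperm, hroot, -⟩ := exists_roots (W := W) hW.Δ_ne_zero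
  obtain ⟨i, rfl⟩ := (hpt v).mp hv
  have hx : ∀ σ : Gal, σ (e i) = e i := fun σ => by
    obtain ⟨π, -, hπ⟩ := hperm σ
    have hi : π i = i := hptinj (by rw [← (hπ i).2, hfix])
    rw [(hπ i).1, hi]
  obtain ⟨q, hq⟩ := (InfiniteGalois.mem_range_algebraMap_iff_fixed (e i)).mpr hx
  refine Lower.no_rational_root hW q ((algebraMap ℚ QBar).injective ?_)
  have h := hroot i
  rw [← hq] at h
  simpa only [map_add, map_mul, map_pow, map_ofNat, map_intCast, map_zero] using h

end Fermat.Agent.Two.Tangent
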